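import Mathlib
import Fermat.Prelude.Def_AlgebraicCurve_CanonicalDivisor

/-!
# S24 / Hurwitz count: places of a function field (algebraic backbone, part 1)

Basic facts on `AlgebraicCurve.Place K F` for a field `F` of transcendence degree one over an
algebraically closed field `K`: `ord` calculus, places from integer-valued valuations, residue
fields are `K` (degree one).
-/

set_option autoImplicit false

namespace Fermat.Agent.S24

open AlgebraicCurve IntermediateField Polynomial WithZero Cardinal

universe u v
variable {K : Type u} {F : Type v} [Field K] [Field F] [Algebra K F]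

/-- The valuation subring of an integer-valued valuation is a principal ideal ring. -/
theorem hw_isPrincipalIdealRing_valuationSubring (w : Valuation F ℤᵐ⁰) :
    IsPrincipalIdealRing w.valuationSubring := by
  constructor
  intro I
  by_cases hI : I = ⊥
  · subst hI
    exact ⟨⟨0, by simp⟩⟩
  -- the set of "orders" of nonzero elements of `I`
  have hex : ∃ n : ℕ, ∃ a ∈ I, a ≠ 0 ∧ (-(log (w (a : F)))).toNat = n := by
    obtain ⟨a, haI, ha0⟩ := Submodule.exists_mem_ne_zero_of_ne_bot hI
    exact ⟨_, a, haI, ha0, rfl⟩
  classical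
  obtain ⟨a₀, ha₀I, ha₀0, ha₀⟩ := Nat.find_spec hex
  have hmin := fun m (hm : m < Nat.find hex) => Nat.find_min hex hm
  refine ⟨⟨a₀, le_antisymm ?_ ?_⟩⟩
  · intro b hb
    rw [Ideal.submodule_span_eq, Ideal.mem_span_singleton']
    by_cases hb0 : b = 0
    · exact ⟨0, by simp [hb0]⟩
    have ha₀F : (a₀ : F) ≠ 0 := by simpa using ha₀0
    have hbF : (b : F) ≠ 0 := by simpa using hb0
    have hwa : w (a₀ : F) ≠ 0 := (Valuation.ne_zero_iff _).mpr ha₀F
    have hwb : w (b : F) ≠ 0 := (Valuation.ne_zero_iff _).mpr hbF
    have hla : log (w (a₀ : F)) ≤ 0 := by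
      have : w (a₀ : F) ≤ 1 := (Valuation.mem_valuationSubring_iff _ _).mp a₀.2
      rw [← log_one (M := ℤ)]
      exact (log_le_log hwa one_ne_zero).mpr this
    have hlb : log (w (b : F)) ≤ 0 := by
      have : w (b : F) ≤ 1 := (Valuation.mem_valuationSubring_iff _ _).mp b.2
      rw [← log_one (M := ℤ)]
      exact (log_le_log hwb one_ne_zero).mpr this
    have hle : w (b : F) ≤ w (a₀ : F) := by
      by_contra hlt
      push Not at hlt
      have h1 : log (w (a₀ : F)) < log (w (b : F)) := by
        rw [← not_le, log_le_log hwb hwa]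
        exact not_le.mpr hlt
      have h2 : (-(log (w (b : F)))).toNat < Nat.find hex := by
        rw [← ha₀]
        omega
      exact hmin _ h2 ⟨b, hb, hb0, rfl⟩
    have hmem : (b : F) / (a₀ : F) ∈ w.valuationSubring := by
      rw [Valuation.mem_valuationSubring_iff, map_div₀]
      exact div_le_one_of_le₀ hle zero_le
    refine ⟨⟨_, hmem⟩, ?_⟩
    ext
    simp only [MulMemClass.coe_mul]
    field_simp
  · rw [Ideal.submodule_span_eq, Ideal.span_singleton_le_iff_mem]
    exact ha₀I

/-- A place from an integer-valued valuation that is trivial on `K` and nontrivial on `F`. -/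
def hw_placeOfValuation (w : Valuation F ℤᵐ⁰) (hK : ∀ a : K, w (algebraMap K F a) ≤ 1)
    (hne : ∃ f : F, 1 < w f) : Place K F where
  toValuationSubring := w.valuationSubring
  algebraMap_mem' a := (Valuation.mem_valuationSubring_iff _ _).mpr (hK a)
  ne_top' := by
    obtain ⟨f, hf⟩ := hne
    intro h
    have : f ∈ w.valuationSubring := by rw [h]; exact ValuationSubring.mem_top f
    exact absurd ((Valuation.mem_valuationSubring_iff _ _).mp this) (not_le.mpr hf)
  isPrincipalIdealRing' := hw_isPrincipalIdealRing_valuationSubring w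

@[simp] theorem hw_placeOfValuation_toValuationSubring (w : Valuation F ℤᵐ⁰)
    (hK : ∀ a : K, w (algebraMap K F a) ≤ 1) (hne : ∃ f : F, 1 < w f) :
    (hw_placeOfValuation w hK hne).toValuationSubring = w.valuationSubring := rfl

/-- Membership in the valuation ring of a place in terms of `ord`. -/
theorem hw_mem_iff_ord_nonneg (v : Place K F) {f : F} (hf : f ≠ 0) :
    f ∈ v.toValuationSubring ↔ 0 ≤ v.ord f := by
  obtain ⟨π, hπ⟩ := IsDiscreteValuationRing.exists_irreducible v.toValuationSubring
  obtain ⟨u, hu⟩ := v.exists_unit_mul_zpow hf hπ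
  have hπF : (π : F) ≠ 0 := by
    simpa [ne_eq, ZeroMemClass.coe_eq_zero] using hπ.ne_zero
  constructor
  · intro hmem
    by_contra hneg
    push Not at hneg
    -- f = u * π ^ n with n < 0, so π ^ (-n) * f = u, hence π is a unit
    set n := v.ord f with hn
    have h1 : (π : F) ^ (-n) * f = ((u : v.toValuationSubring) : F) := by
      rw [hu, mul_comm ((u : v.toValuationSubring) : F), ← mul_assoc, ← zpow_add₀ hπF]
      simp
    obtain ⟨k, hk⟩ : ∃ k : ℕ, -n = (k : ℤ) + 1 := ⟨(-n - 1).toNat, by omega⟩
    have h2 : π * (π ^ k * ⟨f, hmem⟩) = (u : v.toValuationSubring) := by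
      ext
      push_cast
      rw [← h1, hk, zpow_add₀ hπF, zpow_natCast, zpow_one]
      ring
    have : IsUnit π := isUnit_of_mul_isUnit_left (h2 ▸ u.isUnit)
    exact hπ.not_isUnit this
  · intro hn
    obtain ⟨k, hk⟩ : ∃ k : ℕ, v.ord f = (k : ℤ) := ⟨(v.ord f).toNat, by omega⟩
    rw [hu, hk, zpow_natCast]
    exact mul_mem (u : v.toValuationSubring).2 (pow_mem π.2 k)

theorem hw_ord_eq_neg_log (v : Place K F) (f : F) : v.ord f = -(log (v.adicValuation f)) := rfl

theorem hw_adicValuation_eq_exp (v : Place K F) {f : F} (hf : f ≠ 0) :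
    v.adicValuation f = exp (-(v.ord f)) := by
  rw [hw_ord_eq_neg_log, neg_neg, exp_log (v.adicValuation_ne_zero hf)]

theorem hw_ord_le_iff (v : Place K F) {f g : F} (hf : f ≠ 0) (hg : g ≠ 0) :
    v.ord f ≤ v.ord g ↔ v.adicValuation g ≤ v.adicValuation f := by
  rw [hw_adicValuation_eq_exp v hf, hw_adicValuation_eq_exp v hg, exp_le_exp]
  omega

/-- Ultrametric inequality for `ord`. -/
theorem hw_ord_add_ge (v : Place K F) {f g : F} (hf : f ≠ 0) (hg : g ≠ 0) (hfg : f + g ≠ 0) :
    min (v.ord f) (v.ord g) ≤ v.ord (f + g) := by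
  have h := Valuation.map_add v.adicValuation f g
  rw [hw_adicValuation_eq_exp v hf, hw_adicValuation_eq_exp v hg,
    hw_adicValuation_eq_exp v hfg] at h
  rcases le_max_iff.mp h with h | h
  · rw [exp_le_exp] at h
    exact (min_le_left _ _).trans (by omega)
  · rw [exp_le_exp] at h
    exact (min_le_right _ _).trans (by omega)

theorem hw_ord_neg (v : Place K F) (f : F) : v.ord (-f) = v.ord f := by
  simp [hw_ord_eq_neg_log]

theorem hw_ord_add_eq_of_lt (v : Place K F) {f g : F} (hf : f ≠ 0) (hg : g ≠ 0)
    (hlt : v.ord f < v.ord g) : v.ord (f + g) = v.ord f := by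
  have hfg : f + g ≠ 0 := by
    intro h
    have : f = -g := eq_neg_of_add_eq_zero_left h
    rw [this, hw_ord_neg] at hlt
    exact lt_irrefl _ hlt
  apply le_antisymm
  · -- f = (f + g) + (-g)
    by_contra hcon
    push Not at hcon
    have hng : -g ≠ 0 := neg_ne_zero.mpr hg
    have h1 := hw_ord_add_ge v hfg hng (by simpa using hf)
    rw [add_neg_cancel_right, hw_ord_neg] at h1
    have := le_min_iff.mp (le_of_eq rfl : min (v.ord (f + g)) (v.ord g) ≤ min (v.ord (f + g)) (v.ord g))
    rcases min_le_iff.mp h1 with h | h <;> omega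
  · have := hw_ord_add_ge v hf hg hfg
    rw [min_eq_left hlt.le] at this
    exact this

theorem hw_ord_algebraMap (v : Place K F) (a : K) : v.ord (algebraMap K F a) = 0 := by
  rcases eq_or_ne a 0 with rfl | ha
  · simp
  have ha' : algebraMap K F a ≠ 0 := by simpa using ha
  have h1 : 0 ≤ v.ord (algebraMap K F a) :=
    (hw_mem_iff_ord_nonneg v ha').mp (v.algebraMap_mem' a)
  have h2 : 0 ≤ v.ord (algebraMap K F a⁻¹) :=
    (hw_mem_iff_ord_nonneg v (by simpa using ha)).mp (v.algebraMap_mem' a⁻¹)
  rw [map_inv₀, v.ord_inv] at h2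
  omega

/-- For nonzero `f`: `0 < ord f` iff `f` is a non-unit of the valuation ring. -/
theorem hw_ord_pos_iff (v : Place K F) {f : F} (hf : f ≠ 0) :
    0 < v.ord f ↔ f⁻¹ ∉ v.toValuationSubring := by
  rw [hw_mem_iff_ord_nonneg v (inv_ne_zero hf), v.ord_inv]
  omega

theorem hw_ord_pos_of_mem_maximalIdeal (v : Place K F) {a : v.toValuationSubring}
    (ha : a ∈ IsLocalRing.maximalIdeal v.toValuationSubring) (ha0 : a ≠ 0) :
    0 < v.ord (a : F) := by
  have haF : (a : F) ≠ 0 := by simpa using ha0
  rw [hw_ord_pos_iff v haF]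
  intro hinv
  have : IsUnit a := by
    refine IsUnit.of_mul_eq_one ⟨_, hinv⟩ ?_
    ext
    simp [haF]
  exact (IsLocalRing.mem_maximalIdeal _).mp ha this

/-- In a field of transcendence degree one, every transcendental element is a transcendence
basis. -/
theorem hw_isAlgebraic_adjoin_of_transcendental (x : F) [Algebra.IsAlgebraic K⟮x⟯ F]
    {a : F} (ha : Transcendental K a) : Algebra.IsAlgebraic K⟮a⟯ F := by
  have halg : Algebra.IsAlgebraic (Algebra.adjoin K ({x} : Set F)) F := by
    open scoped IntermediateField.algebraAdjoinAdjoin in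
    exact Algebra.IsAlgebraic.trans (Algebra.adjoin K ({x} : Set F)) K⟮x⟯ F
  have hle : Algebra.trdeg K F ≤ 1 := by
    have := Algebra.IsAlgebraic.trdeg_le_cardinalMk K ({x} : Set F)
    simpa using this
  have hind : AlgebraicIndependent K (fun _ : PUnit.{v+1} => a) :=
    (algebraicIndependent_unique_type_iff (x := fun _ : PUnit.{v+1} => a)).mpr ha
  have hb : IsTranscendenceBasis K (fun _ : PUnit.{v+1} => a) :=
    hind.isTranscendenceBasis_of_trdeg_le_of_finite (by simpa using hle)
  have hr : Set.range (fun _ : PUnit.{v+1} => a) = {a} := by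
    ext y; simp [eq_comm]
  have := hb.isAlgebraic_field
  rwa [hr] at this

/-- The residue of an element of the valuation ring of a place is algebraic over `K`. -/
theorem hw_isAlgebraic_residue (x : F) [Algebra.IsAlgebraic K⟮x⟯ F] (v : Place K F)
    (a : v.toValuationSubring) :
    IsAlgebraic K (IsLocalRing.residue v.toValuationSubring a) := by
  by_contra htr
  have htr' : Transcendental K (IsLocalRing.residue v.toValuationSubring a) := htr
  -- the residue map as a `K`-algebra hom
  let res : v.toValuationSubring →ₐ[K] v.ResidueField :=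
    IsScalarTower.toAlgHom K v.toValuationSubring v.ResidueField
  have hres : ∀ b : v.toValuationSubring, res b = IsLocalRing.residue v.toValuationSubring b :=
    fun b => rfl
  let incl : v.toValuationSubring →ₐ[K] F := IsScalarTower.toAlgHom K v.toValuationSubring F
  have hincl : ∀ b : v.toValuationSubring, incl b = (b : F) := fun b => rfl
  -- every nonzero polynomial in `a` is a unit of `O`
  have hunit : ∀ s : K[X], s ≠ 0 → IsUnit (aeval a s) := by
    intro s hs
    have h1 : res (aeval a s) ≠ 0 := by
      rw [← aeval_algHom_apply, hres]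
      exact fun h => hs (transcendental_iff.mp htr' s h)
    by_contra hnu
    exact h1 ((IsLocalRing.residue_eq_zero_iff _).mpr
      ((IsLocalRing.mem_maximalIdeal _).mpr hnu))
  -- `a` is transcendental over `K`
  have haF : Transcendental K (a : F) := by
    rw [transcendental_iff]
    intro p hp
    by_contra hp0
    have h1 : incl (aeval a p) = 0 := by rw [← aeval_algHom_apply, hincl]; exact hp
    have h2 : aeval a p = 0 := by
      have : ((aeval a p : v.toValuationSubring) : F) = 0 := h1
      exact_mod_cast this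
    exact (hunit p hp0).ne_zero h2
  have := hw_isAlgebraic_adjoin_of_transcendental x haF
  -- `K⟮a⟯ ⊆ O`
  have hsub : ∀ y : F, y ∈ K⟮(a : F)⟯ → y ∈ v.toValuationSubring := by
    intro y hy
    obtain ⟨r, s, rfl⟩ := (IntermediateField.mem_adjoin_simple_iff K y).mp hy
    have hr : aeval (a : F) r = ((aeval a r : v.toValuationSubring) : F) :=
      aeval_algHom_apply incl a r
    have hs : aeval (a : F) s = ((aeval a s : v.toValuationSubring) : F) :=
      aeval_algHom_apply incl a s
    rcases eq_or_ne s 0 with rfl | hs0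
    · simp [v.toValuationSubring.zero_mem]
    · obtain ⟨u, hu⟩ := hunit s hs0
      rw [hr, hs, ← hu, div_eq_mul_inv]
      have : (((u : v.toValuationSubring) : F))⁻¹ =
          ((u⁻¹ : (v.toValuationSubring)ˣ) : v.toValuationSubring) := by
        have h := congrArg (fun t : v.toValuationSubring => (t : F)) u.mul_inv
        simp only [MulMemClass.coe_mul, OneMemClass.coe_one] at h
        exact inv_eq_of_mul_eq_one_right h
      rw [this]
      exact v.toValuationSubring.mul_mem _ _ (aeval a r).2
        ((u⁻¹ : (v.toValuationSubring)ˣ) : v.toValuationSubring).2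
  -- hence every element of `F` is integral over `O`, so lies in `O`
  apply v.ne_top'
  rw [eq_top_iff]
  intro f _
  let ι : K⟮(a : F)⟯ →+* v.toValuationSubring :=
    (algebraMap K⟮(a : F)⟯ F).codRestrict v.toValuationSubring.toSubring (fun y => hsub _ y.2)
  have hint : IsIntegral K⟮(a : F)⟯ f := (Algebra.IsAlgebraic.isAlgebraic f).isIntegral
  obtain ⟨p, hpm, hp0⟩ := hint
  have hintO : IsIntegral v.toValuationSubring f := by
    refine ⟨p.map ι, hpm.map ι, ?_⟩
    rw [eval₂_map]
    have : (algebraMap v.toValuationSubring F).comp ι = algebraMap K⟮(a : F)⟯ F := by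
      ext y; rfl
    rw [this]
    exact hp0
  obtain ⟨y, hy⟩ := IsIntegrallyClosed.isIntegral_iff.mp hintO
  rw [← hy]
  exact y.2

variable [IsAlgClosed K]

theorem hw_algebraMap_residueField_surjective (x : F) [Algebra.IsAlgebraic K⟮x⟯ F]
    (v : Place K F) : Function.Surjective (algebraMap K v.ResidueField) := by
  have : Algebra.IsIntegral K v.ResidueField := by
    refine ⟨fun y => ?_⟩
    obtain ⟨a, rfl⟩ := IsLocalRing.residue_surjective y
    exact (hw_isAlgebraic_residue x v a).isIntegral
  exact IsAlgClosed.algebraMap_bijective_of_isIntegral.2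

/-- Every place of a function field over an algebraically closed field has degree one. -/
theorem hw_deg_eq_one (x : F) [Algebra.IsAlgebraic K⟮x⟯ F] (v : Place K F) : v.deg = 1 := by
  have hs := hw_algebraMap_residueField_surjective x v
  have hb : Function.Bijective (Algebra.ofId K v.ResidueField) :=
    ⟨(algebraMap K v.ResidueField).injective, hs⟩
  have e := (AlgEquiv.ofBijective (Algebra.ofId K v.ResidueField) hb).toLinearEquiv
  rw [Place.deg, ← e.finrank_eq, Module.finrank_self]

/-- Every element of the valuation ring is congruent to a constant. -/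
theorem hw_exists_const (x : F) [Algebra.IsAlgebraic K⟮x⟯ F] (v : Place K F)
    {a : F} (ha : a ∈ v.toValuationSubring) :
    ∃ c : K, a = algebraMap K F c ∨ 0 < v.ord (a - algebraMap K F c) := by
  obtain ⟨c, hc⟩ := hw_algebraMap_residueField_surjective x v
    (IsLocalRing.residue v.toValuationSubring ⟨a, ha⟩)
  refine ⟨c, ?_⟩
  by_cases h : a = algebraMap K F c
  · exact Or.inl h
  right
  have hne : a - algebraMap K F c ≠ 0 := sub_ne_zero.mpr h
  have h0 : IsLocalRing.residue v.toValuationSubring
      (⟨a, ha⟩ - algebraMap K v.toValuationSubring c) = 0 := by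
    rw [map_sub, ← hc]
    exact sub_self _
  have hmem := (IsLocalRing.residue_eq_zero_iff _).mp h0
  have := hw_ord_pos_of_mem_maximalIdeal v hmem (by
    intro h0'
    apply hne
    have := congrArg (fun t : v.toValuationSubring => (t : F)) h0'
    simpa using this)
  simpa using this

end Fermat.Agent.S24
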