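import Mathlib
import Fermat.Agent.S24.Hurwitz.Places

/-!
# S24 / Hurwitz count: places versus primes of a Dedekind domain (algebraic backbone, part 2)

* comparison of an integer valued valuation with the normalised valuation of a place,
* places of `F` whose valuation ring contains a Dedekind domain `B` with fraction field `F`
  correspond to the nonzero primes of `B`,
* the fundamental identity `∑ e = n` in terms of `Place.ord`.
-/

set_option autoImplicit false

namespace Fermat.Agent.S24

open AlgebraicCurve IntermediateField Polynomial WithZero Cardinal IsDedekindDomain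

universe u v
variable {K : Type u} {F : Type v} [Field K] [Field F] [Algebra K F]

/-- Comparison of an integer-valued valuation with the normalised valuation of a place having
the same valuation ring: `w f = (w π) ^ ord f`. -/
theorem hw_valuation_eq_zpow (v : Place K F) (w : Valuation F ℤᵐ⁰)
    (h : w.valuationSubring = v.toValuationSubring) {π : v.toValuationSubring}
    (hπ : Irreducible π) {f : F} (hf : f ≠ 0) : w f = w (π : F) ^ v.ord f := by
  obtain ⟨u, hu⟩ := v.exists_unit_mul_zpow hf hπ
  have hu1 : w ((u : v.toValuationSubring) : F) = 1 := by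
    have h1 : w ((u : v.toValuationSubring) : F) ≤ 1 := by
      rw [← Valuation.mem_valuationSubring_iff, h]; exact (u : v.toValuationSubring).2
    have h2 : w (((u⁻¹ : (v.toValuationSubring)ˣ) : v.toValuationSubring) : F) ≤ 1 := by
      rw [← Valuation.mem_valuationSubring_iff, h]
      exact ((u⁻¹ : (v.toValuationSubring)ˣ) : v.toValuationSubring).2
    have h3 : w ((u : v.toValuationSubring) : F) *
        w (((u⁻¹ : (v.toValuationSubring)ˣ) : v.toValuationSubring) : F) = 1 := by
      rw [← map_mul]
      have := congrArg (fun t : v.toValuationSubring => (t : F)) u.mul_inv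
      simp only [MulMemClass.coe_mul, OneMemClass.coe_one] at this
      rw [this, map_one]
    exact eq_one_of_one_le_mul_left h1 h2 h3.ge
  conv_lhs => rw [hu]
  rw [map_mul, hu1, one_mul, map_zpow₀]

/-- If moreover `w` takes the value `exp (-1)`, then `w` is the normalised valuation. -/
theorem hw_adicValuation_eq (v : Place K F) (w : Valuation F ℤᵐ⁰)
    (h : w.valuationSubring = v.toValuationSubring) (hw : ∃ ϖ : F, w ϖ = exp (-1 : ℤ)) :
    v.adicValuation = w := by
  obtain ⟨π, hπ⟩ := IsDiscreteValuationRing.exists_irreducible v.toValuationSubring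
  obtain ⟨ϖ, hϖ⟩ := hw
  have hϖ0 : ϖ ≠ 0 := by
    rintro rfl
    rw [map_zero] at hϖ
    exact exp_ne_zero hϖ.symm
  have hπF : (π : F) ≠ 0 := by
    simpa [ne_eq, ZeroMemClass.coe_eq_zero] using hπ.ne_zero
  have hwπ0 : w (π : F) ≠ 0 := (Valuation.ne_zero_iff _).mpr hπF
  have h1 := hw_valuation_eq_zpow v w h hπ hϖ0
  rw [hϖ] at h1
  -- w π = exp (-j), j * ord ϖ = 1
  obtain ⟨j, hj⟩ : ∃ j : ℤ, w (π : F) = exp j := ⟨log (w (π : F)), (exp_log hwπ0).symm⟩
  rw [hj, ← exp_zsmul, exp_inj] at h1
  have hj1 : j ≤ 0 := by
    have : w (π : F) ≤ 1 := by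
      rw [← Valuation.mem_valuationSubring_iff, h]; exact π.2
    rw [hj, ← exp_zero, exp_le_exp] at this
    exact this
  have hjm : j = -1 := by
    simp only [smul_eq_mul] at h1
    have : j ∣ 1 := ⟨-(v.ord ϖ), by linarith⟩
    rcases Int.isUnit_iff.mp (isUnit_of_dvd_one this) with h | h <;> omega
  ext f
  rcases eq_or_ne f 0 with rfl | hf
  · simp
  rw [hw_valuation_eq_zpow v w h hπ hf, hj, hjm, hw_adicValuation_eq_exp v hf, ← exp_zsmul]
  simp

section Dedekind

variable (B : Type*) [CommRing B] [IsDedekindDomain B] [Algebra K B] [Algebra B F]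
  [IsScalarTower K B F] [IsFractionRing B F]

/-- The place attached to a nonzero prime of a Dedekind domain `B ⊆ F` containing `K`. -/
noncomputable def hw_placeOfPrime (Q : HeightOneSpectrum B) : Place K F :=
  hw_placeOfValuation (Q.valuation F)
    (fun a => by
      rw [IsScalarTower.algebraMap_apply K B F]
      exact Q.valuation_le_one _)
    (by
      obtain ⟨π, hπ⟩ := Q.valuation_exists_uniformizer F
      refine ⟨π⁻¹, ?_⟩
      rw [map_inv₀, hπ, ← exp_neg, neg_neg, ← exp_zero, exp_lt_exp]
      norm_num)

@[simp] theorem hw_placeOfPrime_toValuationSubring (Q : HeightOneSpectrum B) :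
    (hw_placeOfPrime (K := K) (F := F) B Q).toValuationSubring =
      (Q.valuation F).valuationSubring := rfl

theorem hw_placeOfPrime_adicValuation (Q : HeightOneSpectrum B) :
    (hw_placeOfPrime (K := K) (F := F) B Q).adicValuation = Q.valuation F :=
  hw_adicValuation_eq _ _ rfl (Q.valuation_exists_uniformizer F)

theorem hw_placeOfPrime_ord (Q : HeightOneSpectrum B) (f : F) :
    (hw_placeOfPrime (K := K) (F := F) B Q).ord f = -(log (Q.valuation F f)) := by
  rw [hw_ord_eq_neg_log, hw_placeOfPrime_adicValuation]

theorem hw_placeOfPrime_algebraMap_mem (Q : HeightOneSpectrum B) (b : B) :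
    algebraMap B F b ∈ (hw_placeOfPrime (K := K) (F := F) B Q).toValuationSubring :=
  (Valuation.mem_valuationSubring_iff _ _).mpr (Q.valuation_le_one b)

variable {B}

/-- The inclusion of `B` into the valuation ring of a place containing it. -/
noncomputable def hw_inclB (v : Place K F) (hB : ∀ b : B, algebraMap B F b ∈ v.toValuationSubring) :
    B →+* v.toValuationSubring :=
  (algebraMap B F).codRestrict v.toValuationSubring.toSubring hB

@[simp] theorem hw_inclB_coe (v : Place K F)
    (hB : ∀ b : B, algebraMap B F b ∈ v.toValuationSubring) (b : B) :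
    ((hw_inclB v hB b : v.toValuationSubring) : F) = algebraMap B F b := rfl

/-- The prime of `B` cut out by a place whose valuation ring contains `B`. -/
noncomputable def hw_primeOfPlace (v : Place K F)
    (hB : ∀ b : B, algebraMap B F b ∈ v.toValuationSubring) : HeightOneSpectrum B where
  asIdeal := Ideal.comap (hw_inclB v hB) (IsLocalRing.maximalIdeal v.toValuationSubring)
  isPrime := Ideal.comap_isPrime _ _
  ne_bot := by
    intro hbot
    apply v.ne_top'
    rw [eq_top_iff]
    intro f _
    obtain ⟨a, b, hb, rfl⟩ := IsFractionRing.div_surjective (A := B) f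
    have hb0 : b ≠ 0 := nonZeroDivisors.ne_zero hb
    have hbu : IsUnit (hw_inclB v hB b) := by
      by_contra hnu
      have : b ∈ Ideal.comap (hw_inclB v hB)
          (IsLocalRing.maximalIdeal v.toValuationSubring) :=
        Ideal.mem_comap.mpr ((IsLocalRing.mem_maximalIdeal _).mpr hnu)
      rw [hbot] at this
      exact hb0 (by simpa using this)
    obtain ⟨u, hu⟩ := hbu
    have h1 : algebraMap B F b = ((u : v.toValuationSubring) : F) := by
      rw [hu]; rfl
    have h2 : (algebraMap B F b)⁻¹ = ((u⁻¹ : (v.toValuationSubring)ˣ) : v.toValuationSubring) := by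
      rw [h1]
      have h := congrArg (fun t : v.toValuationSubring => (t : F)) u.mul_inv
      simp only [MulMemClass.coe_mul, OneMemClass.coe_one] at h
      exact inv_eq_of_mul_eq_one_right h
    rw [div_eq_mul_inv, h2]
    exact v.toValuationSubring.mul_mem _ _ (hB a)
      ((u⁻¹ : (v.toValuationSubring)ˣ) : v.toValuationSubring).2

theorem hw_mem_primeOfPlace_iff (v : Place K F)
    (hB : ∀ b : B, algebraMap B F b ∈ v.toValuationSubring) (b : B) :
    b ∈ (hw_primeOfPlace v hB).asIdeal ↔ ¬ IsUnit (hw_inclB v hB b) := by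
  change b ∈ Ideal.comap (hw_inclB v hB) (IsLocalRing.maximalIdeal v.toValuationSubring) ↔ _
  rw [Ideal.mem_comap, IsLocalRing.mem_maximalIdeal, mem_nonunits_iff]

/-- A place whose valuation ring contains `B` is the place of its prime. -/
theorem hw_placeOfPrime_primeOfPlace (v : Place K F)
    (hB : ∀ b : B, algebraMap B F b ∈ v.toValuationSubring) :
    hw_placeOfPrime B (hw_primeOfPlace v hB) = v := by
  apply Place.ext
  rw [hw_placeOfPrime_toValuationSubring]
  set Q := hw_primeOfPlace v hB with hQ
  rw [← HeightOneSpectrum.valuationSubringAtPrime_eq_valuationSubring]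
  refine ValuationSubring.eq_of_le_of_ne_top _ ?_ v.ne_top'
  intro f hf
  have hf' : Q.valuation F f ≤ 1 := by
    rw [HeightOneSpectrum.valuationSubringAtPrime_eq_valuationSubring] at hf
    exact (Valuation.mem_valuationSubring_iff _ _).mp hf
  obtain ⟨n, d, hnd⟩ := Q.exists_primeCompl_mul_eq_of_integer f hf'
  have hd : IsUnit (hw_inclB v hB d) := by
    by_contra hnu
    exact d.2 ((hw_mem_primeOfPlace_iff v hB d).mpr hnu)
  obtain ⟨u, hu⟩ := hd
  have h1 : algebraMap B F d = ((u : v.toValuationSubring) : F) := by
    rw [hu]; rfl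
  have hd0 : algebraMap B F d ≠ 0 := by
    rw [h1]; simp
  have h2 : (algebraMap B F d)⁻¹ = ((u⁻¹ : (v.toValuationSubring)ˣ) : v.toValuationSubring) := by
    rw [h1]
    have h := congrArg (fun t : v.toValuationSubring => (t : F)) u.mul_inv
    simp only [MulMemClass.coe_mul, OneMemClass.coe_one] at h
    exact inv_eq_of_mul_eq_one_right h
  have : f = algebraMap B F n * (algebraMap B F d)⁻¹ := by
    rw [← hnd, mul_assoc, mul_inv_cancel₀ hd0, mul_one]
  rw [this, h2]
  exact v.toValuationSubring.mul_mem _ _ (hB n)
    ((u⁻¹ : (v.toValuationSubring)ˣ) : v.toValuationSubring).2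

theorem hw_primeOfPlace_placeOfPrime (Q : HeightOneSpectrum B) :
    hw_primeOfPlace (hw_placeOfPrime (K := K) (F := F) B Q)
      (hw_placeOfPrime_algebraMap_mem B Q) = Q := by
  apply HeightOneSpectrum.ext
  ext b
  rw [hw_mem_primeOfPlace_iff, ← Q.valuation_lt_one_iff_mem (K := F),
    ← Place.adicValuation_coe_eq_one_iff, hw_placeOfPrime_adicValuation, hw_inclB_coe]
  have := Q.valuation_le_one (K := F) b
  constructor
  · intro h
    exact lt_of_le_of_ne this h
  · intro h
    exact ne_of_lt h

end Dedekind

section Sum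
variable [IsAlgClosed K]
variable (B : Type*) [CommRing B] [IsDedekindDomain B] [Algebra K B] [Algebra B F]
  [IsScalarTower K B F] [IsFractionRing B F]
variable (R : Type*) [CommRing R] [IsDomain R] [Algebra K R] [Algebra R B] [IsScalarTower K R B]
  [Module.Finite R B] [Module.Flat R B] [FaithfulSMul R B]

omit [IsDedekindDomain B] [IsDomain R] [Module.Flat R B] [FaithfulSMul R B] in
theorem hw_inertiaDeg_eq_one (p : Ideal R) [p.IsMaximal]
    (hK : Function.Surjective (algebraMap K (R ⧸ p))) (q : Ideal B) [q.IsPrime] [q.LiesOver p] :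
    q.inertiaDeg R = 1 := by
  have : q.IsMaximal := Ideal.IsMaximal.of_liesOver_isMaximal q p
  rw [Ideal.inertiaDeg_eq_of_isMaximal p q]
  let : Field (R ⧸ p) := Ideal.Quotient.field p
  let : Field (B ⧸ q) := Ideal.Quotient.field q
  have h1 : Algebra.IsIntegral K (R ⧸ p) := Algebra.isIntegral_of_surjective hK
  have h2 : Algebra.IsIntegral (R ⧸ p) (B ⧸ q) := inferInstance
  have h3 : Algebra.IsIntegral K (B ⧸ q) := Algebra.IsIntegral.trans (R ⧸ p)
  have hbij : Function.Bijective (algebraMap K (B ⧸ q)) :=
    IsAlgClosed.algebraMap_bijective_of_isIntegral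
  have hsurj : Function.Surjective (algebraMap (R ⧸ p) (B ⧸ q)) := by
    intro y
    obtain ⟨c, hc⟩ := hbij.2 y
    exact ⟨algebraMap K (R ⧸ p) c, by rw [← IsScalarTower.algebraMap_apply, hc]⟩
  have hinj : Function.Injective (algebraMap (R ⧸ p) (B ⧸ q)) := RingHom.injective _
  rw [← (LinearEquiv.ofBijective (Algebra.linearMap (R ⧸ p) (B ⧸ q)) ⟨hinj, hsurj⟩).finrank_eq,
    Module.finrank_self]

end Sum

section Sum
variable (B : Type*) [CommRing B] [IsDedekindDomain B] [Algebra K B] [Algebra B F]
  [IsScalarTower K B F] [IsFractionRing B F]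
variable (R : Type*) [CommRing R] [IsDomain R] [Algebra K R] [Algebra R B] [IsScalarTower K R B]
  [Module.Finite R B] [Module.Flat R B] [FaithfulSMul R B]

omit [Algebra K B] [IsScalarTower K B F] [Algebra K R] [IsScalarTower K R B] [Module.Finite R B]
  [Module.Flat R B] in
theorem hw_ramificationIdx_eq (t : R) (ht : t ≠ 0) (Q : HeightOneSpectrum B)
    [Q.asIdeal.LiesOver (Ideal.span {t})] :
    (Q.asIdeal.ramificationIdx R : ℤ) =
      -(log (Q.valuation F (algebraMap B F (algebraMap R B t)))) := by
  have htB : algebraMap R B t ≠ 0 := by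
    rwa [Ne, FaithfulSMul.algebraMap_eq_zero_iff]
  have hmap : (Ideal.span {t}).map (algebraMap R B) = Ideal.span {algebraMap R B t} := by
    rw [Ideal.map_span, Set.image_singleton]
  have hne : (Ideal.span {t}).map (algebraMap R B) ≠ ⊥ := by
    rw [hmap, Ne, Ideal.span_singleton_eq_bot]
    exact htB
  have := Q.isPrime
  rw [Ideal.IsDedekindDomain.ramificationIdx_eq_multiplicity (Ideal.span {t}) Q.asIdeal hne, hmap,
    HeightOneSpectrum.valuation_of_algebraMap, Q.intValuation_eq_exp_neg_multiplicity htB,
    log_exp, neg_neg]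

end Sum

section Sum2
variable [IsAlgClosed K]
variable (B : Type*) [CommRing B] [IsDedekindDomain B] [Algebra K B] [Algebra B F]
  [IsScalarTower K B F] [IsFractionRing B F]
variable (R : Type*) [CommRing R] [IsDomain R] [Algebra K R] [Algebra R B] [IsScalarTower K R B]
  [Module.Finite R B] [Module.Flat R B] [FaithfulSMul R B]

/-- The fundamental identity in terms of places: if `t` generates a maximal ideal of `R` with
residue field `K`, the places of `F` at which `t` vanishes form a finite set and their orders
at `t` sum up to the rank of `B` over `R`. -/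
theorem hw_sum_ord_eq_finrank (t : R) (ht : t ≠ 0) [hmax : (Ideal.span {t}).IsMaximal]
    (hK : Function.Surjective (algebraMap K (R ⧸ Ideal.span {t})))
    (hcontain : ∀ v : Place K F, 0 < v.ord (algebraMap B F (algebraMap R B t)) →
      ∀ b : B, algebraMap B F b ∈ v.toValuationSubring) :
    ∃ s : Finset (Place K F),
      (∀ v, v ∈ s ↔ 0 < v.ord (algebraMap B F (algebraMap R B t))) ∧
      ∑ v ∈ s, v.ord (algebraMap B F (algebraMap R B t)) = (Module.finrank R B : ℤ) := by
  classical
  set p : Ideal R := Ideal.span {t} with hp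
  have hp0 : p ≠ ⊥ := by
    rw [hp, Ne, Ideal.span_singleton_eq_bot]; exact ht
  have : Fintype (p.primesOver B) := (Algebra.QuasiFinite.finite_primesOver p).fintype
  -- the height one prime attached to a prime over `p`
  let hq : p.primesOver B → HeightOneSpectrum B := fun q =>
    ⟨q.1, q.2.1, Ideal.ne_bot_of_mem_primesOver hp0 q.2⟩
  let g : p.primesOver B → Place K F := fun q => hw_placeOfPrime B (hq q)
  have hginj : Function.Injective g := by
    intro q q' h
    have h1 : hq q = hq q' := by
      rw [← hw_primeOfPlace_placeOfPrime (K := K) (F := F) (hq q),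
        ← hw_primeOfPlace_placeOfPrime (K := K) (F := F) (hq q')]
      congr 1
    exact Subtype.ext (congrArg HeightOneSpectrum.asIdeal h1)
  have hord : ∀ q : p.primesOver B,
      (g q).ord (algebraMap B F (algebraMap R B t)) = (q.1.ramificationIdx R : ℤ) := by
    intro q
    have : (hq q).asIdeal.LiesOver (Ideal.span {t}) := q.2.2
    rw [hw_placeOfPrime_ord, ← hw_ramificationIdx_eq B R t ht (hq q)]
  refine ⟨Finset.univ.map ⟨g, hginj⟩, ?_, ?_⟩
  · intro v
    simp only [Finset.mem_map, Finset.mem_univ, true_and, Function.Embedding.coeFn_mk]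
    constructor
    · rintro ⟨q, rfl⟩
      rw [hord]
      have := q.2.1
      exact_mod_cast Ideal.ramificationIdx_pos q.1 R
    · intro hv
      have hB := hcontain v hv
      set Q := hw_primeOfPlace v hB with hQ
      have htQ : algebraMap R B t ∈ Q.asIdeal := by
        rw [hw_mem_primeOfPlace_iff]
        intro hu
        have h1 := (v.adicValuation_coe_eq_one_iff _).mpr hu
        rw [hw_inclB_coe] at h1
        rw [hw_ord_eq_neg_log, h1] at hv
        simp at hv
      have hlies : Q.asIdeal.LiesOver p := by
        constructor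
        have hle : p ≤ Q.asIdeal.under R := by
          rw [hp, Ideal.span_le, Set.singleton_subset_iff]
          exact htQ
        have hne : Q.asIdeal.under R ≠ ⊤ := by
          intro h
          have : (1 : R) ∈ Q.asIdeal.under R := by rw [h]; trivial
          rw [Ideal.under_def, Ideal.mem_comap, map_one] at this
          exact Q.isPrime.ne_top ((Ideal.eq_top_iff_one _).mpr this)
        exact hmax.eq_of_le hne hle
      refine ⟨⟨Q.asIdeal, Q.isPrime, hlies⟩, ?_⟩
      exact hw_placeOfPrime_primeOfPlace v hB
  · rw [Finset.sum_map]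
    simp only [Function.Embedding.coeFn_mk]
    rw [← Ideal.sum_ramification_inertia_eq_finrank p B]
    push_cast
    refine Finset.sum_congr rfl fun q _ => ?_
    have := q.2.1
    have := q.2.2
    rw [hord, hw_inertiaDeg_eq_one B R p hK q.1]
    simp

end Sum2


end Fermat.Agent.S24
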