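import Mathlib
import Fermat.Agent.S24.Hurwitz.IntegralClosure

/-!
# S24 / Hurwitz count: function fields of one variable (algebraic backbone, part 3)

`F` is a field over an algebraically closed field `K` of characteristic zero, `x : F` is
transcendental over `K` and `F` is finite over `K(x)`.

* `hw_sum_ord_sub_const`: the places over `x = c` are finitely many and `∑ ord_v (x - c) = [F : K(x)]`,
* `hw_sum_ord_poles`: the poles of `x` are finitely many and `∑ ord_v x = -[F : K(x)]`,
* `hw_finiteDimensional_adjoin`: `F` is finite over `K(a)` for every transcendental `a`,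
* `hw_degree_eq_zero_of_principal`: principal divisors have degree zero.
-/

set_option autoImplicit false

namespace Fermat.Agent.S24

open AlgebraicCurve IntermediateField Polynomial WithZero Cardinal IsDedekindDomain
open scoped IntermediateField.algebraAdjoinAdjoin

universe u v
variable {K : Type u} {F : Type v} [Field K] [Field F] [Algebra K F]

/-- `K[X] ≃ K[x]` for transcendental `x`. -/
noncomputable def hw_polyEquiv {x : F} (hx : Transcendental K x) :
    K[X] ≃ₐ[K] Algebra.adjoin K ({x} : Set F) :=
  (AlgEquiv.ofInjective (aeval x) (transcendental_iff_injective.mp hx)).trans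
    (Subalgebra.equivOfEq _ _ (Algebra.adjoin_singleton_eq_range_aeval K x).symm)

theorem hw_polyEquiv_coe {x : F} (hx : Transcendental K x) (p : K[X]) :
    ((hw_polyEquiv hx p : Algebra.adjoin K ({x} : Set F)) : F) = aeval x p := rfl

theorem hw_isPrincipalIdealRing_adjoin {x : F} (hx : Transcendental K x) :
    IsPrincipalIdealRing (Algebra.adjoin K ({x} : Set F)) :=
  IsPrincipalIdealRing.of_surjective (hw_polyEquiv hx).toRingEquiv.toRingHom
    (hw_polyEquiv hx).surjective

/-- The integral closure of `K[x]` is contained in the valuation ring of every place at which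
`x` is regular. -/
theorem hw_coe_mem_of_mem_integralClosure (x : F) (v : Place K F)
    (hxv : x ∈ v.toValuationSubring)
    (b : integralClosure (Algebra.adjoin K ({x} : Set F)) F) :
    (b : F) ∈ v.toValuationSubring := by
  have hR : ∀ r : Algebra.adjoin K ({x} : Set F), (r : F) ∈ v.toValuationSubring := by
    intro r
    have : Algebra.adjoin K ({x} : Set F) ≤
        (IsScalarTower.toAlgHom K v.toValuationSubring F).range := by
      refine Algebra.adjoin_le ?_
      intro y hy
      rw [Set.mem_singleton_iff.mp hy]
      exact ⟨⟨x, hxv⟩, rfl⟩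
    obtain ⟨y, hy⟩ := this r.2
    rw [← hy]
    exact y.2
  let ι : Algebra.adjoin K ({x} : Set F) →+* v.toValuationSubring :=
    (algebraMap (Algebra.adjoin K ({x} : Set F)) F).codRestrict v.toValuationSubring.toSubring
      (fun r => hR r)
  obtain ⟨p, hpm, hp0⟩ := b.2
  have hintO : IsIntegral v.toValuationSubring (b : F) := by
    refine ⟨p.map ι, hpm.map ι, ?_⟩
    rw [eval₂_map]
    have : (algebraMap v.toValuationSubring F).comp ι =
        algebraMap (Algebra.adjoin K ({x} : Set F)) F := by
      ext y; rfl
    rw [this]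
    exact hp0
  obtain ⟨y, hy⟩ := IsIntegrallyClosed.isIntegral_iff.mp hintO
  rw [← hy]
  exact y.2

theorem hw_essFiniteType (x : F) [FiniteDimensional K⟮x⟯ F] : Algebra.EssFiniteType K F := by
  have h0 : Algebra.FiniteType K (Algebra.adjoin K ({x} : Set F)) :=
    Algebra.FiniteType.adjoin_of_finite (Set.finite_singleton x)
  have h1 : Algebra.EssFiniteType K (Algebra.adjoin K ({x} : Set F)) := inferInstance
  have h2 : Algebra.EssFiniteType (Algebra.adjoin K ({x} : Set F)) K⟮x⟯ :=
    Algebra.EssFiniteType.of_isLocalization _ (nonZeroDivisors (Algebra.adjoin K ({x} : Set F)))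
  have h3 : Algebra.EssFiniteType K K⟮x⟯ :=
    Algebra.EssFiniteType.comp K (Algebra.adjoin K ({x} : Set F)) K⟮x⟯
  have h4 : Algebra.EssFiniteType K⟮x⟯ F := inferInstance
  exact Algebra.EssFiniteType.comp K K⟮x⟯ F

/-- A function field is finite over `K(a)` for every transcendental `a`. -/
theorem hw_finiteDimensional_adjoin (x : F) [FiniteDimensional K⟮x⟯ F] {a : F}
    (ha : Transcendental K a) : FiniteDimensional K⟮a⟯ F := by
  have h1 := hw_essFiniteType (K := K) x
  have h2 : Algebra.EssFiniteType K⟮a⟯ F := Algebra.EssFiniteType.of_comp K K⟮a⟯ F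
  have h3 : Algebra.IsAlgebraic K⟮a⟯ F := hw_isAlgebraic_adjoin_of_transcendental x ha
  exact Algebra.finite_of_essFiniteType_of_isAlgebraic

section Concrete
variable [IsAlgClosed K] [CharZero K]

/-- **Fundamental identity** for a function field `F/K(x)` over an algebraically closed field
of characteristic zero, at a finite point `c`: the places above `x = c` are finitely many and
their ramification indices `ord_v (x - c)` add up to `[F : K(x)]`. -/
theorem hw_sum_ord_sub_const {x : F} (hx : Transcendental K x) [FiniteDimensional K⟮x⟯ F]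
    (c : K) :
    ∃ s : Finset (Place K F),
      (∀ v, v ∈ s ↔ 0 < v.ord (x - algebraMap K F c)) ∧
      ∑ v ∈ s, v.ord (x - algebraMap K F c) = (Module.finrank K⟮x⟯ F : ℤ) := by
  have hPID := hw_isPrincipalIdealRing_adjoin hx
  have hDed := integralClosure.isDedekindDomain (Algebra.adjoin K ({x} : Set F)) K⟮x⟯ F
  have hfin : Module.Finite (Algebra.adjoin K ({x} : Set F))
      (integralClosure (Algebra.adjoin K ({x} : Set F)) F) :=
    IsIntegralClosure.finite (Algebra.adjoin K ({x} : Set F)) K⟮x⟯ F _
  have hfrac : IsFractionRing (integralClosure (Algebra.adjoin K ({x} : Set F)) F) F :=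
    integralClosure.isFractionRing_of_finite_extension K⟮x⟯ F
  have hflat : Module.Flat (Algebra.adjoin K ({x} : Set F))
      (integralClosure (Algebra.adjoin K ({x} : Set F)) F) := inferInstance
  have hfaith : FaithfulSMul (Algebra.adjoin K ({x} : Set F))
      (integralClosure (Algebra.adjoin K ({x} : Set F)) F) :=
    (faithfulSMul_iff_algebraMap_injective _ _).mpr (fun a b h => by
      have := congrArg (algebraMap (integralClosure (Algebra.adjoin K ({x} : Set F)) F) F) h
      exact Subtype.ext this)
  let xR : Algebra.adjoin K ({x} : Set F) := ⟨x, Algebra.self_mem_adjoin_singleton K x⟩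
  let t : Algebra.adjoin K ({x} : Set F) := xR - algebraMap K _ c
  have ht_coe : algebraMap (integralClosure (Algebra.adjoin K ({x} : Set F)) F) F
      (algebraMap (Algebra.adjoin K ({x} : Set F)) _ t) = x - algebraMap K F c := rfl
  have htpoly : t = hw_polyEquiv hx (X - C c) := by
    apply Subtype.ext
    rw [hw_polyEquiv_coe]
    simp [t, xR]
  have hirr : Irreducible t := by
    rw [htpoly]
    exact (MulEquiv.irreducible_iff (hw_polyEquiv hx)).mpr (irreducible_X_sub_C c)
  have ht : t ≠ 0 := hirr.ne_zero
  have hmax : (Ideal.span {t}).IsMaximal := PrincipalIdealRing.isMaximal_of_irreducible hirr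
  have hK : Function.Surjective
      (algebraMap K (Algebra.adjoin K ({x} : Set F) ⧸ Ideal.span {t})) := by
    intro y
    obtain ⟨r, rfl⟩ := Ideal.Quotient.mk_surjective y
    obtain ⟨p, rfl⟩ := (hw_polyEquiv hx).surjective r
    refine ⟨p.eval c, ?_⟩
    rw [IsScalarTower.algebraMap_apply K (Algebra.adjoin K ({x} : Set F)), Ideal.Quotient.algebraMap_eq,
      eq_comm, Ideal.Quotient.mk_eq_mk_iff_sub_mem, Ideal.mem_span_singleton, htpoly]
    have h1 : p - C (p.eval c) = (X - C c) * (p /ₘ (X - C c)) := by
      have := modByMonic_add_div p (X - C c)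
      rw [modByMonic_X_sub_C_eq_C_eval] at this
      linear_combination (-1 : K[X]) * this
    refine ⟨hw_polyEquiv hx (p /ₘ (X - C c)), ?_⟩
    rw [← map_mul, ← h1, map_sub]
    congr 1
    exact ((hw_polyEquiv hx).commutes (p.eval c)).symm
  have hcontain : ∀ v : Place K F,
      0 < v.ord (algebraMap (integralClosure (Algebra.adjoin K ({x} : Set F)) F) F
        (algebraMap (Algebra.adjoin K ({x} : Set F)) _ t)) →
      ∀ b : integralClosure (Algebra.adjoin K ({x} : Set F)) F,
        algebraMap (integralClosure (Algebra.adjoin K ({x} : Set F)) F) F b ∈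
          v.toValuationSubring := by
    intro v hv b
    rw [ht_coe] at hv
    have hne : x - algebraMap K F c ≠ 0 := by
      intro h; rw [h] at hv; simp at hv
    have h1 : x - algebraMap K F c ∈ v.toValuationSubring :=
      (hw_mem_iff_ord_nonneg v hne).mpr hv.le
    have h2 : x ∈ v.toValuationSubring := by
      have := v.toValuationSubring.add_mem _ _ h1 (v.algebraMap_mem' c)
      simpa using this
    exact hw_coe_mem_of_mem_integralClosure x v h2 b
  obtain ⟨s, hs1, hs2⟩ := hw_sum_ord_eq_finrank
    (integralClosure (Algebra.adjoin K ({x} : Set F)) F) (Algebra.adjoin K ({x} : Set F))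
    t ht hK hcontain
  rw [ht_coe] at hs2
  simp only [ht_coe] at hs1
  refine ⟨s, hs1, ?_⟩
  rw [hs2, IsFractionRing.finrank_eq (Algebra.adjoin K ({x} : Set F)) K⟮x⟯
    (integralClosure (Algebra.adjoin K ({x} : Set F)) F) F]

/-- The same at infinity: the poles of `x` are finitely many and their orders add up to
`-[F : K(x)]`. -/
theorem hw_sum_ord_poles {x : F} (hx : Transcendental K x) [FiniteDimensional K⟮x⟯ F] :
    ∃ s : Finset (Place K F),
      (∀ v, v ∈ s ↔ v.ord x < 0) ∧
      ∑ v ∈ s, v.ord x = -(Module.finrank K⟮x⟯ F : ℤ) := by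
  have hx' : Transcendental K x⁻¹ := fun h => hx (IsAlgebraic.inv_iff.mp h)
  have heq : K⟮x⁻¹⟯ = K⟮x⟯ := by
    apply le_antisymm
    · rw [adjoin_simple_le_iff]
      exact inv_mem (mem_adjoin_simple_self K x)
    · rw [adjoin_simple_le_iff]
      have := inv_mem (mem_adjoin_simple_self K x⁻¹)
      rwa [inv_inv] at this
  have hfd : FiniteDimensional K⟮x⁻¹⟯ F := by
    rw [heq]; infer_instance
  obtain ⟨s, hs1, hs2⟩ := hw_sum_ord_sub_const hx' (0 : K)
  simp only [map_zero, sub_zero, Place.ord_inv] at hs1 hs2
  refine ⟨s, fun v => by rw [hs1 v]; omega, ?_⟩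
  rw [Finset.sum_neg_distrib] at hs2
  rw [← congrArg (fun E : IntermediateField K F => Module.finrank E F) heq]
  linarith

end Concrete


section Concrete2
variable [IsAlgClosed K]

/-- Over an algebraically closed field, every element of an extension field is constant or
transcendental. -/
theorem hw_const_or_transcendental (f : F) :
    (∃ c : K, f = algebraMap K F c) ∨ Transcendental K f := by
  by_cases h : IsAlgebraic K f
  · left
    have hint : IsIntegral K f := h.isIntegral
    have hdeg : (minpoly K f).degree = 1 :=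
      IsAlgClosed.degree_eq_one_of_irreducible K (minpoly.irreducible hint)
    obtain ⟨c, hc⟩ := minpoly.mem_range_of_degree_eq_one K f hdeg
    exact ⟨c, hc.symm⟩
  · exact Or.inr h

/-- The degree of a divisor is the sum of its coefficients (all places have degree one). -/
theorem hw_degree_eq_sum (x : F) [Algebra.IsAlgebraic K⟮x⟯ F] (E : Divisor K F)
    (S : Finset (Place K F)) (hS : E.support ⊆ S) :
    Divisor.degree E = ∑ v ∈ S, E v := by
  have h1 : Divisor.degree E = E.sum fun v n => n * (v.deg : ℤ) := by
    simp [Divisor.degree, Finsupp.liftAddHom_apply]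
  rw [h1, Finsupp.sum_of_support_subset E hS _ (by simp)]
  refine Finset.sum_congr rfl fun v _ => ?_
  rw [hw_deg_eq_one x v]
  simp

variable [CharZero K]

/-- Principal divisors have degree zero. -/
theorem hw_degree_eq_zero_of_principal (x : F) [FiniteDimensional K⟮x⟯ F] {f : F} (hf : f ≠ 0)
    (E : Divisor K F) (hE : ∀ v, E v = v.ord f) : Divisor.degree E = 0 := by
  classical
  rcases hw_const_or_transcendental (K := K) f with ⟨c, rfl⟩ | hft
  · have : E = 0 := by
      ext v
      rw [hE v, hw_ord_algebraMap]
      rfl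
    rw [this, map_zero]
  · have hfd := hw_finiteDimensional_adjoin x hft
    obtain ⟨s0, hs0, hsum0⟩ := hw_sum_ord_sub_const hft (0 : K)
    obtain ⟨sI, hsI, hsumI⟩ := hw_sum_ord_poles hft
    simp only [map_zero, sub_zero] at hs0 hsum0
    have hsupp : E.support ⊆ s0 ∪ sI := by
      intro v hv
      rw [Finsupp.mem_support_iff, hE v] at hv
      rw [Finset.mem_union, hs0, hsI]
      omega
    have hdisj : Disjoint s0 sI := by
      rw [Finset.disjoint_left]
      intro v h0 hI
      rw [hs0] at h0
      rw [hsI] at hI
      omega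
    rw [hw_degree_eq_sum x E _ hsupp, Finset.sum_union hdisj]
    simp only [hE]
    rw [hsum0, hsumI]
    ring

end Concrete2


section Finiteness
variable [IsAlgClosed K] [CharZero K]

theorem hw_finite_fiber {x : F} (hx : Transcendental K x) [FiniteDimensional K⟮x⟯ F] (c : K) :
    {v : Place K F | 0 < v.ord (x - algebraMap K F c)}.Finite := by
  obtain ⟨s, hs, -⟩ := hw_sum_ord_sub_const hx c
  exact s.finite_toSet.subset fun v hv => (hs v).mpr hv

theorem hw_finite_poles {x : F} (hx : Transcendental K x) [FiniteDimensional K⟮x⟯ F] :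
    {v : Place K F | v.ord x < 0}.Finite := by
  obtain ⟨s, hs, -⟩ := hw_sum_ord_poles hx
  exact s.finite_toSet.subset fun v hv => (hs v).mpr hv

theorem hw_sum_fiber_toFinset {x : F} (hx : Transcendental K x) [FiniteDimensional K⟮x⟯ F]
    (c : K) :
    ∑ v ∈ (hw_finite_fiber hx c).toFinset, v.ord (x - algebraMap K F c) =
      (Module.finrank K⟮x⟯ F : ℤ) := by
  obtain ⟨s, hs, hsum⟩ := hw_sum_ord_sub_const hx c
  have : (hw_finite_fiber hx c).toFinset = s := by
    ext v; simp [hs]
  rw [this, hsum]

theorem hw_sum_poles_toFinset {x : F} (hx : Transcendental K x) [FiniteDimensional K⟮x⟯ F] :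
    ∑ v ∈ (hw_finite_poles hx).toFinset, v.ord x = -(Module.finrank K⟮x⟯ F : ℤ) := by
  obtain ⟨s, hs, hsum⟩ := hw_sum_ord_poles hx
  have : (hw_finite_poles hx).toFinset = s := by
    ext v; simp [hs]
  rw [this, hsum]

end Finiteness

end Fermat.Agent.S24
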