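import Mathlib
import Fermat.Agent.S24.Hurwitz.FunctionField

/-!
# S24 / Hurwitz count: differentials of a function field (algebraic backbone, part 4)

* `hw_kaehlerEquiv`: `Ω[F/K] ≃ F`, `dx ↦ 1`, for `x` transcendental with `F/K(x)` finite
  (characteristic zero); `hw_deriv` is the derivation `d/dx` of `F`.
-/

set_option autoImplicit false

namespace Fermat.Agent.S24

open AlgebraicCurve IntermediateField Polynomial WithZero Cardinal KaehlerDifferential
open scoped IntermediateField.algebraAdjoinAdjoin TensorProduct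

universe u v
variable {K : Type u} {F : Type v} [Field K] [Field F] [Algebra K F]

/-- The generator of `K[x]`. -/
def hw_genAdjoin (x : F) : Algebra.adjoin K ({x} : Set F) :=
  ⟨x, Algebra.self_mem_adjoin_singleton K x⟩

@[simp] theorem hw_genAdjoin_coe (x : F) : ((hw_genAdjoin (K := K) x : Algebra.adjoin K ({x} : Set F)) : F) = x := rfl

theorem hw_polyEquiv_apply {x : F} (hx : Transcendental K x) (p : K[X]) :
    hw_polyEquiv hx p = aeval (hw_genAdjoin (K := K) x) p := by
  apply Subtype.ext
  rw [hw_polyEquiv_coe]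
  have := aeval_algHom_apply (Algebra.adjoin K ({x} : Set F)).val (hw_genAdjoin (K := K) x) p
  simpa using this

/-- The derivation `d/dx` of `K[x]`. -/
noncomputable def hw_derivAdjoin {x : F} (hx : Transcendental K x) :
    Derivation K (Algebra.adjoin K ({x} : Set F)) (Algebra.adjoin K ({x} : Set F)) :=
  Derivation.mk'
    ((hw_polyEquiv hx).toLinearMap ∘ₗ (derivative' (R := K)).toLinearMap ∘ₗ
      (hw_polyEquiv hx).symm.toLinearMap)
    (fun a b => by
      simp only [LinearMap.coe_comp, Function.comp_apply, AlgEquiv.toLinearMap_apply,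
        Derivation.coeFn_coe, derivative'_apply, map_mul, derivative_mul, map_add,
        AlgEquiv.apply_symm_apply, smul_eq_mul]
      ring)

theorem hw_derivAdjoin_apply {x : F} (hx : Transcendental K x) (p : K[X]) :
    hw_derivAdjoin hx (hw_polyEquiv hx p) = hw_polyEquiv hx (derivative p) := by
  simp [hw_derivAdjoin, Derivation.coe_mk']

theorem hw_derivAdjoin_gen {x : F} (hx : Transcendental K x) :
    hw_derivAdjoin hx (hw_genAdjoin x) = 1 := by
  have h := hw_derivAdjoin_apply hx X
  rw [hw_polyEquiv_apply, aeval_X, derivative_X, map_one] at h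
  exact h

theorem hw_D_adjoin {x : F} (hx : Transcendental K x) (r : Algebra.adjoin K ({x} : Set F)) :
    D K (Algebra.adjoin K ({x} : Set F)) r =
      hw_derivAdjoin hx r • D K (Algebra.adjoin K ({x} : Set F)) (hw_genAdjoin x) := by
  obtain ⟨p, rfl⟩ := (hw_polyEquiv hx).surjective r
  rw [hw_derivAdjoin_apply, hw_polyEquiv_apply, hw_polyEquiv_apply, Derivation.map_aeval]

/-- `Ω[K[x]/K]` is free of rank one on `dx`. -/
noncomputable def hw_kaehlerAdjoinEquiv {x : F} (hx : Transcendental K x) :
    Ω[Algebra.adjoin K ({x} : Set F)⁄K] ≃ₗ[Algebra.adjoin K ({x} : Set F)]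
      Algebra.adjoin K ({x} : Set F) where
  __ := (hw_derivAdjoin hx).liftKaehlerDifferential
  invFun r := r • D K (Algebra.adjoin K ({x} : Set F)) (hw_genAdjoin x)
  left_inv := by
    intro ω
    have hω : ω ∈ Submodule.span (Algebra.adjoin K ({x} : Set F))
        (Set.range (D K (Algebra.adjoin K ({x} : Set F)))) := by
      rw [KaehlerDifferential.span_range_derivation]; trivial
    simp only [AddHom.toFun_eq_coe, LinearMap.coe_toAddHom]
    induction hω using Submodule.span_induction with
    | mem y hy =>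
      obtain ⟨r, rfl⟩ := hy
      rw [Derivation.liftKaehlerDifferential_comp_D, ← hw_D_adjoin]
    | zero => simp
    | add a b _ _ ha hb => rw [map_add, add_smul, ha, hb]
    | smul c a _ ha => rw [map_smul, smul_assoc, ha]
  right_inv := by
    intro r
    simp only [AddHom.toFun_eq_coe, LinearMap.coe_toAddHom, map_smul,
      Derivation.liftKaehlerDifferential_comp_D, hw_derivAdjoin_gen, smul_eq_mul, mul_one]

theorem hw_kaehlerAdjoinEquiv_D {x : F} (hx : Transcendental K x)
    (r : Algebra.adjoin K ({x} : Set F)) :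
    hw_kaehlerAdjoinEquiv hx (D K _ r) = hw_derivAdjoin hx r :=
  Derivation.liftKaehlerDifferential_comp_D _ _

section
variable [CharZero K]

theorem hw_formallyEtale_adjoin (x : F) [FiniteDimensional K⟮x⟯ F] :
    Algebra.FormallyEtale (Algebra.adjoin K ({x} : Set F)) F := by
  have h1 : Algebra.FormallyEtale (Algebra.adjoin K ({x} : Set F)) K⟮x⟯ :=
    Algebra.FormallyEtale.of_isLocalization (nonZeroDivisors (Algebra.adjoin K ({x} : Set F)))
  have h2 : Algebra.FormallyEtale K⟮x⟯ F := Algebra.FormallyEtale.of_isSeparable K⟮x⟯ F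
  exact Algebra.FormallyEtale.comp (Algebra.adjoin K ({x} : Set F)) K⟮x⟯ F

/-- `Ω[F/K]` is one-dimensional, with `dx ↦ 1`. -/
noncomputable def hw_kaehlerEquiv {x : F} (hx : Transcendental K x) [FiniteDimensional K⟮x⟯ F] :
    Ω[F⁄K] ≃ₗ[F] F :=
  haveI := hw_formallyEtale_adjoin (K := K) x
  (tensorKaehlerEquivOfFormallyEtale K (Algebra.adjoin K ({x} : Set F)) F).symm ≪≫ₗ
    (TensorProduct.AlgebraTensorModule.congr (LinearEquiv.refl F F) (hw_kaehlerAdjoinEquiv hx)) ≪≫ₗ
    (TensorProduct.AlgebraTensorModule.rid (Algebra.adjoin K ({x} : Set F)) F F)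

theorem hw_kaehlerEquiv_D_algebraMap {x : F} (hx : Transcendental K x)
    [FiniteDimensional K⟮x⟯ F] (r : Algebra.adjoin K ({x} : Set F)) :
    hw_kaehlerEquiv hx (D K F (r : F)) = ((hw_derivAdjoin hx r : Algebra.adjoin K ({x} : Set F)) : F) := by
  have := hw_formallyEtale_adjoin (K := K) x
  have h1 : (r : F) = algebraMap (Algebra.adjoin K ({x} : Set F)) F r := rfl
  rw [hw_kaehlerEquiv, h1, LinearEquiv.trans_apply, LinearEquiv.trans_apply,
    tensorKaehlerEquivOfFormallyEtale_symm_D_algebraMap,
    TensorProduct.AlgebraTensorModule.congr_tmul, TensorProduct.AlgebraTensorModule.rid_tmul,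
    hw_kaehlerAdjoinEquiv_D, LinearEquiv.refl_apply, Algebra.smul_def, mul_one]
  rfl

theorem hw_kaehlerEquiv_D_self {x : F} (hx : Transcendental K x) [FiniteDimensional K⟮x⟯ F] :
    hw_kaehlerEquiv hx (D K F x) = 1 := by
  have := hw_kaehlerEquiv_D_algebraMap hx (hw_genAdjoin x)
  rw [hw_derivAdjoin_gen] at this
  simpa using this

theorem hw_D_ne_zero {x : F} (hx : Transcendental K x) [FiniteDimensional K⟮x⟯ F] :
    D K F x ≠ 0 := by
  intro h
  have := hw_kaehlerEquiv_D_self hx
  rw [h, map_zero] at this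
  exact zero_ne_one this

/-- Every differential is a multiple of `dx`. -/
theorem hw_eq_smul_D {x : F} (hx : Transcendental K x) [FiniteDimensional K⟮x⟯ F]
    (ω : Ω[F⁄K]) : ω = hw_kaehlerEquiv hx ω • D K F x := by
  apply (hw_kaehlerEquiv hx).injective
  rw [map_smul, hw_kaehlerEquiv_D_self, smul_eq_mul, mul_one]

/-- The derivation `d/dx` of `F`. -/
noncomputable def hw_deriv {x : F} (hx : Transcendental K x) [FiniteDimensional K⟮x⟯ F] :
    Derivation K F F :=
  (hw_kaehlerEquiv hx).toLinearMap.compDer (D K F)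

theorem hw_deriv_apply {x : F} (hx : Transcendental K x) [FiniteDimensional K⟮x⟯ F] (a : F) :
    hw_deriv hx a = hw_kaehlerEquiv hx (D K F a) := rfl

theorem hw_deriv_self {x : F} (hx : Transcendental K x) [FiniteDimensional K⟮x⟯ F] :
    hw_deriv hx x = 1 := hw_kaehlerEquiv_D_self hx

theorem hw_D_eq_deriv_smul {x : F} (hx : Transcendental K x) [FiniteDimensional K⟮x⟯ F] (a : F) :
    D K F a = hw_deriv hx a • D K F x := hw_eq_smul_D hx _

end

end Fermat.Agent.S24
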