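import Mathlib
import Fermat.Agent.S24.Hurwitz.Kaehler

/-!
# S24 / Hurwitz count: order of differentials at places (algebraic backbone, part 5)

* `hw_essFiniteType_place`: valuation rings of places are essentially of finite type,
* `hw_span_D_uniformizer`: (Nakayama) `Ω[O_v/K]` is generated by `dπ`,
* `hw_exists_D_eq_smul`: `du = g dπ` with `g ∈ O_v` for `u ∈ O_v`,
* `hw_ordDifferential_D`: the local Hurwitz formula `ord_v (dy) = ord_v y - 1`,
* `hw_dCoordGenerates`, `hw_ordDifferential_smul`.
-/

set_option autoImplicit false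

namespace Fermat.Agent.S24

open AlgebraicCurve IntermediateField Polynomial WithZero Cardinal KaehlerDifferential IsDedekindDomain
open scoped IntermediateField.algebraAdjoinAdjoin TensorProduct

universe u v
variable {K : Type u} {F : Type v} [Field K] [Field F] [Algebra K F]

section
variable [IsAlgClosed K] [CharZero K]

/-- At every place, `x` or `1/x` is a regular transcendental parameter. -/
theorem hw_exists_regular {x : F} (hx : Transcendental K x) [FiniteDimensional K⟮x⟯ F]
    (v : Place K F) :
    ∃ y : F, Transcendental K y ∧ FiniteDimensional K⟮y⟯ F ∧ y ∈ v.toValuationSubring := by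
  rcases v.toValuationSubring.mem_or_inv_mem x with h | h
  · exact ⟨x, hx, inferInstance, h⟩
  · have hx' : Transcendental K x⁻¹ := fun h => hx (IsAlgebraic.inv_iff.mp h)
    exact ⟨x⁻¹, hx', hw_finiteDimensional_adjoin x hx', h⟩

/-- The valuation ring of a place is essentially of finite type over `K`. -/
theorem hw_essFiniteType_place {x : F} (hx : Transcendental K x) [FiniteDimensional K⟮x⟯ F]
    (v : Place K F) : Algebra.EssFiniteType K v.toValuationSubring := by
  obtain ⟨y, hy, hfd, hyv⟩ := hw_exists_regular hx v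
  have hPID := hw_isPrincipalIdealRing_adjoin hy
  have hDed := integralClosure.isDedekindDomain (Algebra.adjoin K ({y} : Set F)) K⟮y⟯ F
  have hfin : Module.Finite (Algebra.adjoin K ({y} : Set F))
      (integralClosure (Algebra.adjoin K ({y} : Set F)) F) :=
    IsIntegralClosure.finite (Algebra.adjoin K ({y} : Set F)) K⟮y⟯ F _
  have hfrac : IsFractionRing (integralClosure (Algebra.adjoin K ({y} : Set F)) F) F :=
    integralClosure.isFractionRing_of_finite_extension K⟮y⟯ F
  have hB : ∀ b : integralClosure (Algebra.adjoin K ({y} : Set F)) F,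
      algebraMap (integralClosure (Algebra.adjoin K ({y} : Set F)) F) F b ∈
        v.toValuationSubring :=
    fun b => hw_coe_mem_of_mem_integralClosure y v hyv b
  have h0 : Algebra.FiniteType K (Algebra.adjoin K ({y} : Set F)) :=
    Algebra.FiniteType.adjoin_of_finite (Set.finite_singleton y)
  have h1 : Algebra.FiniteType K (integralClosure (Algebra.adjoin K ({y} : Set F)) F) :=
    Algebra.FiniteType.trans h0 inferInstance
  let : Algebra (integralClosure (Algebra.adjoin K ({y} : Set F)) F) v.toValuationSubring :=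
    (hw_inclB v hB).toAlgebra
  have : IsScalarTower K (integralClosure (Algebra.adjoin K ({y} : Set F)) F)
      v.toValuationSubring :=
    IsScalarTower.of_algebraMap_eq (fun a => Subtype.ext rfl)
  have h2 : Algebra.EssFiniteType (integralClosure (Algebra.adjoin K ({y} : Set F)) F)
      v.toValuationSubring := by
    rw [Algebra.essFiniteType_iff]
    refine ⟨∅, fun s => ?_⟩
    simp only [Finset.coe_empty, Algebra.adjoin_empty, Algebra.mem_bot, Set.mem_range]
    set Q := hw_primeOfPlace v hB with hQ
    have hval : v.toValuationSubring = (Q.valuation F).valuationSubring :=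
      (congrArg Place.toValuationSubring (hw_placeOfPrime_primeOfPlace v hB)).symm
    have hs : Q.valuation F (s : F) ≤ 1 := by
      rw [← Valuation.mem_valuationSubring_iff, ← hval]; exact s.2
    obtain ⟨n, d, hnd⟩ := Q.exists_primeCompl_mul_eq_of_integer (s : F) hs
    refine ⟨hw_inclB v hB d, ⟨d, rfl⟩, ?_, ⟨n, ?_⟩⟩
    · by_contra hnu
      exact d.2 ((hw_mem_primeOfPlace_iff v hB d).mpr hnu)
    · apply Subtype.ext
      exact hnd.symm
  exact Algebra.EssFiniteType.comp K (integralClosure (Algebra.adjoin K ({y} : Set F)) F)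
    v.toValuationSubring

/-- **Nakayama**: the module of differentials of the valuation ring of a place is generated by
the differential of a uniformizer. -/
theorem hw_span_D_uniformizer {x : F} (hx : Transcendental K x) [FiniteDimensional K⟮x⟯ F]
    (v : Place K F) {π : v.toValuationSubring} (hπ : Irreducible π) :
    Submodule.span v.toValuationSubring {D K v.toValuationSubring π} = ⊤ := by
  have hess := hw_essFiniteType_place hx v
  have hfin : Module.Finite v.toValuationSubring Ω[v.toValuationSubring⁄K] := inferInstance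
  rw [eq_top_iff]
  refine Submodule.le_of_le_smul_of_le_jacobson_bot
    (I := IsLocalRing.maximalIdeal v.toValuationSubring) hfin.fg_top
    (IsLocalRing.jacobson_eq_maximalIdeal ⊥ bot_ne_top).ge ?_
  rw [← KaehlerDifferential.span_range_derivation, Submodule.span_le]
  rintro _ ⟨a, rfl⟩
  -- `a = c + π * a'`
  have hπF : (π : F) ≠ 0 := by
    simpa [ne_eq, ZeroMemClass.coe_eq_zero] using hπ.ne_zero
  obtain ⟨c, hc⟩ := hw_exists_const x v a.2
  have hdecomp : ∃ a' : v.toValuationSubring, a = algebraMap K v.toValuationSubring c + π * a' := by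
    rcases hc with hc | hc
    · refine ⟨0, ?_⟩
      apply Subtype.ext
      simp [hc]
    · have hne : (a : F) - algebraMap K F c ≠ 0 := by
        intro h; rw [h] at hc; simp at hc
      have hmem : ((a : F) - algebraMap K F c) / (π : F) ∈ v.toValuationSubring := by
        rw [hw_mem_iff_ord_nonneg v (div_ne_zero hne hπF), div_eq_mul_inv,
          v.ord_mul hne (inv_ne_zero hπF), v.ord_inv, v.ord_coe_irreducible hπ]
        omega
      refine ⟨⟨_, hmem⟩, ?_⟩
      apply Subtype.ext
      change (a : F) = algebraMap K F c + (π : F) * (((a : F) - algebraMap K F c) / (π : F))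
      field_simp
      ring
  obtain ⟨a', ha'⟩ := hdecomp
  rw [ha', map_add, Derivation.map_algebraMap, zero_add, Derivation.leibniz]
  refine Submodule.add_mem _ ?_ ?_
  · refine Submodule.mem_sup_right ?_
    refine Submodule.smul_mem_smul ?_ (Submodule.subset_span ⟨a', rfl⟩)
    exact (IsLocalRing.mem_maximalIdeal _).mpr hπ.not_isUnit
  · exact Submodule.mem_sup_left (Submodule.smul_mem _ _ (Submodule.mem_span_singleton_self _))

/-- **Key lemma**: for `u` in the valuation ring of a place with uniformizer `π`,
`du = g dπ` with `g` in the valuation ring. -/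
theorem hw_exists_D_eq_smul {x : F} (hx : Transcendental K x) [FiniteDimensional K⟮x⟯ F]
    (v : Place K F) {π : v.toValuationSubring} (hπ : Irreducible π) (u : v.toValuationSubring) :
    ∃ g : v.toValuationSubring, D K F (u : F) = (g : F) • D K F (π : F) := by
  have hmem : D K v.toValuationSubring u ∈
      Submodule.span v.toValuationSubring {D K v.toValuationSubring π} := by
    rw [hw_span_D_uniformizer hx v hπ]; trivial
  obtain ⟨g, hg⟩ := Submodule.mem_span_singleton.mp hmem
  refine ⟨g, ?_⟩
  have h := congrArg (KaehlerDifferential.map K K v.toValuationSubring F) hg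
  rw [map_smul, KaehlerDifferential.map_D, KaehlerDifferential.map_D] at h
  exact h.symm

theorem hw_exists_dCoord_eq (v : Place K F) :
    ∃ π : v.toValuationSubring, Irreducible π ∧ v.dCoord = D K F (π : F) :=
  ⟨_, (IsDiscreteValuationRing.exists_irreducible v.toValuationSubring).choose_spec, rfl⟩

theorem hw_transcendental_of_ord_ne_zero (v : Place K F) {y : F} (hy : v.ord y ≠ 0) :
    Transcendental K y := by
  rcases hw_const_or_transcendental (K := K) y with ⟨c, rfl⟩ | h
  · exact absurd (hw_ord_algebraMap v c) hy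
  · exact h

theorem hw_transcendental_irreducible (v : Place K F) {π : v.toValuationSubring}
    (hπ : Irreducible π) : Transcendental K (π : F) :=
  hw_transcendental_of_ord_ne_zero v (by rw [v.ord_coe_irreducible hπ]; norm_num)

theorem hw_D_irreducible_ne_zero (x : F) [FiniteDimensional K⟮x⟯ F]
    (v : Place K F) {π : v.toValuationSubring} (hπ : Irreducible π) : D K F (π : F) ≠ 0 := by
  have htr := hw_transcendental_irreducible v hπ
  have := hw_finiteDimensional_adjoin x htr
  exact hw_D_ne_zero htr

/-- **Order of a differential** `dy` at a place where `y` has a zero or a pole, with respect to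
any uniformizer `π`: `dy = g dπ` with `ord g = ord y - 1`. -/
theorem hw_exists_D_eq_smul_ord {x : F} (hx : Transcendental K x) [FiniteDimensional K⟮x⟯ F]
    (v : Place K F) {π : v.toValuationSubring} (hπ : Irreducible π) {y : F}
    (hy : v.ord y ≠ 0) :
    ∃ g : F, D K F y = g • D K F (π : F) ∧ v.ord g = v.ord y - 1 := by
  have hy0 : y ≠ 0 := by
    rintro rfl; simp at hy
  have hπF : (π : F) ≠ 0 := by
    simpa [ne_eq, ZeroMemClass.coe_eq_zero] using hπ.ne_zero
  obtain ⟨w, hw⟩ := v.exists_unit_mul_zpow hy0 hπ
  obtain ⟨g, hg⟩ := hw_exists_D_eq_smul hx v hπ (w : v.toValuationSubring)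
  set n := v.ord y with hn
  have hwF : ((w : v.toValuationSubring) : F) ≠ 0 := by simp
  have hnF : ((n : K) : K) ≠ 0 := by exact_mod_cast hy
  have hnF' : algebraMap K F (n : K) ≠ 0 :=
    fun h => hnF ((algebraMap K F).injective (by rw [h, map_zero]))
  -- the two terms
  set A : F := algebraMap K F (n : K) * ((w : v.toValuationSubring) : F) * (π : F) ^ (n - 1)
    with hA
  set B : F := (π : F) ^ n * (g : F) with hB
  have hD : D K F y = (A + B) • D K F (π : F) := by
    conv_lhs => rw [hw]
    rw [Derivation.leibniz, Derivation.leibniz_zpow, hg, add_smul, hA, hB]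
    simp only [smul_smul, map_intCast]
    rw [← Int.cast_smul_eq_zsmul F, smul_smul, smul_smul]
    congr 1
    · congr 1; ring
  have hA0 : A ≠ 0 := mul_ne_zero (mul_ne_zero hnF' hwF) (zpow_ne_zero _ hπF)
  have hordA : v.ord A = n - 1 := by
    rw [hA, v.ord_mul (mul_ne_zero hnF' hwF) (zpow_ne_zero _ hπF), v.ord_mul hnF' hwF,
      hw_ord_algebraMap, v.ord_coe_unit, v.ord_zpow, v.ord_coe_irreducible hπ]
    ring
  refine ⟨A + B, hD, ?_⟩
  by_cases hg0 : (g : F) = 0
  · rw [hB, hg0, mul_zero, add_zero, hordA]
  · have hB0 : B ≠ 0 := mul_ne_zero (zpow_ne_zero _ hπF) hg0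
    have hordB : n ≤ v.ord B := by
      rw [hB, v.ord_mul (zpow_ne_zero _ hπF) hg0, v.ord_zpow, v.ord_coe_irreducible hπ]
      have := (hw_mem_iff_ord_nonneg v hg0).mp g.2
      linarith
    rw [hw_ord_add_eq_of_lt v hA0 hB0 (by rw [hordA]; omega), hordA]

theorem hw_nontrivial_kaehler {x : F} (hx : Transcendental K x) [FiniteDimensional K⟮x⟯ F] :
    Nontrivial Ω[F⁄K] :=
  ⟨⟨D K F x, 0, hw_D_ne_zero hx⟩⟩

theorem hw_dCoord_ne_zero (x : F) [FiniteDimensional K⟮x⟯ F] (v : Place K F) :
    v.dCoord ≠ 0 := by
  obtain ⟨π, hπ, hd⟩ := hw_exists_dCoord_eq v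
  rw [hd]
  exact hw_D_irreducible_ne_zero x v hπ

/-- The chosen coordinate differential of every place generates `Ω[F/K]`. -/
theorem hw_dCoordGenerates {x : F} (hx : Transcendental K x) [FiniteDimensional K⟮x⟯ F]
    (v : Place K F) : v.DCoordGenerates := by
  constructor
  rw [eq_top_iff]
  intro ω _
  have h1 := hw_eq_smul_D hx ω
  have h2 := hw_eq_smul_D hx v.dCoord
  have hne : hw_kaehlerEquiv hx v.dCoord ≠ 0 := by
    intro h
    rw [h, zero_smul] at h2
    exact hw_dCoord_ne_zero x v h2
  rw [Submodule.mem_span_singleton]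
  generalize hw_kaehlerEquiv hx v.dCoord = a at h2 hne
  refine ⟨hw_kaehlerEquiv hx ω * a⁻¹, ?_⟩
  rw [h2, smul_smul, mul_assoc, inv_mul_cancel₀ hne, mul_one, ← h1]

/-- `ordDifferential` is computed by any representation `ω = g • dCoord`. -/
theorem hw_ordDifferential_eq (x : F) [FiniteDimensional K⟮x⟯ F] (v : Place K F)
    {ω : Ω[F⁄K]} {g : F} (h : ω = g • v.dCoord) : v.ordDifferential ω = v.ord g := by
  have hex : ∃ f : F, ω = f • v.dCoord := ⟨g, h⟩
  have hne := hw_dCoord_ne_zero x v
  have : v.differentialCoeff ω = g := by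
    rw [Place.differentialCoeff, dif_pos hex]
    have h1 := hex.choose_spec
    have h2 : (hex.choose - g) • v.dCoord = 0 := by
      rw [sub_smul, ← h1, ← h, sub_self]
    rcases smul_eq_zero.mp h2 with h3 | h3
    · exact sub_eq_zero.mp h3
    · exact absurd h3 hne
  rw [Place.ordDifferential, this]

/-- **Local Hurwitz formula**: at a zero or pole of `y`, `ord_v (dy) = ord_v y - 1`. -/
theorem hw_ordDifferential_D {x : F} (hx : Transcendental K x) [FiniteDimensional K⟮x⟯ F]
    (v : Place K F) {y : F} (hy : v.ord y ≠ 0) :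
    v.ordDifferential (D K F y) = v.ord y - 1 := by
  obtain ⟨π, hπ, hd⟩ := hw_exists_dCoord_eq v
  obtain ⟨g, hg, hord⟩ := hw_exists_D_eq_smul_ord hx v hπ hy
  rw [hw_ordDifferential_eq x v (g := g) (by rw [hd]; exact hg), hord]

/-- **Local Hurwitz formula** at a point where `y` takes the finite value `c`. -/
theorem hw_ordDifferential_D_sub_const {x : F} (hx : Transcendental K x)
    [FiniteDimensional K⟮x⟯ F] (v : Place K F) {y : F} (c : K)
    (hy : v.ord (y - algebraMap K F c) ≠ 0) :
    v.ordDifferential (D K F y) = v.ord (y - algebraMap K F c) - 1 := by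
  rw [← hw_ordDifferential_D hx v hy, map_sub, Derivation.map_algebraMap, sub_zero]

/-- `ord_v (f ω) = ord_v f + ord_v ω`. -/
theorem hw_ordDifferential_smul {x : F} (hx : Transcendental K x) [FiniteDimensional K⟮x⟯ F]
    (v : Place K F) {f : F} (hf : f ≠ 0) {ω : Ω[F⁄K]} (hω : ω ≠ 0) :
    v.ordDifferential (f • ω) = v.ord f + v.ordDifferential ω := by
  have := hw_dCoordGenerates hx v
  obtain ⟨g, hg⟩ := v.exists_eq_smul_dCoord ω
  have hg0 : g ≠ 0 := by
    rintro rfl
    rw [zero_smul] at hg
    exact hω hg
  rw [hw_ordDifferential_eq x v hg, hw_ordDifferential_eq x v (g := f * g)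
    (by rw [hg, smul_smul]), v.ord_mul hf hg0]

end


end Fermat.Agent.S24
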