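import Mathlib
import Fermat.Agent.S24.Hurwitz.Differentials

/-!
# S24 / Hurwitz count: the Riemann–Hurwitz formula for the prelude genus (part 6, final)

`F/K` a function field over an algebraically closed field of characteristic zero, `x : F`
transcendental with `F/K(x)` finite.

* `hw_degree_eq_sum_ordDifferential`: `deg div(ω) = ∑_v ord_v (dx)` for every `ω ≠ 0`,
* `hw_degree_canonical_card`, `hw_degree_canonical_ncard`: the Riemann–Hurwitz count
  `deg div(ω) = ∑_{c ∈ C} (n - #{v | c}) - n - #{v | ∞}` for a finite set `C` of values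
  containing all branch values,
* `hw_genus_eq`: the prelude `AlgebraicCurve.genus K F` in these terms.
-/

set_option autoImplicit false

namespace Fermat.Agent.S24

open AlgebraicCurve IntermediateField Polynomial WithZero Cardinal KaehlerDifferential
open scoped IntermediateField.algebraAdjoinAdjoin

universe u v
variable {K : Type u} {F : Type v} [Field K] [Field F] [Algebra K F]

section
variable [IsAlgClosed K] [CharZero K]

/-- The degree of the divisor of any nonzero differential is the (finite) sum of the orders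
of `dx`. -/
theorem hw_degree_eq_sum_ordDifferential {x : F} (hx : Transcendental K x)
    [FiniteDimensional K⟮x⟯ F] (E : Divisor K F) {ω : Ω[F⁄K]} (hω : ω ≠ 0)
    (hE : ∀ v, E v = v.ordDifferential ω) (S : Finset (Place K F))
    (hS : ∀ v, v ∉ S → v.ordDifferential (D K F x) = 0) :
    Divisor.degree E = ∑ v ∈ S, v.ordDifferential (D K F x) := by
  classical
  set f := hw_kaehlerEquiv hx ω with hf
  have hωf : ω = f • D K F x := hw_eq_smul_D hx ω
  have hf0 : f ≠ 0 := by
    intro h
    rw [h, zero_smul] at hωf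
    exact hω hωf
  have hDx := hw_D_ne_zero hx
  set E₂ : Divisor K F := ∑ w ∈ S, Finsupp.single w (w.ordDifferential (D K F x)) with hE₂
  have hE₂v : ∀ v, E₂ v = v.ordDifferential (D K F x) := by
    intro v
    rw [hE₂, Finsupp.finsetSum_apply]
    simp only [Finsupp.single_apply]
    rw [Finset.sum_ite_eq' S v]
    split_ifs with h
    · rfl
    · exact (hS v h).symm
  have hE₁ : ∀ v, (E - E₂) v = v.ord f := by
    intro v
    rw [Finsupp.sub_apply, hE v, hE₂v v]
    conv_lhs => rw [hωf]
    rw [hw_ordDifferential_smul hx v hf0 hDx]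
    ring
  have h1 := hw_degree_eq_zero_of_principal x hf0 (E - E₂) hE₁
  rw [map_sub, sub_eq_zero] at h1
  rw [h1, hE₂, map_sum]
  refine Finset.sum_congr rfl fun v _ => ?_
  rw [Divisor.degree_single, hw_deg_eq_one x v]
  simp

theorem hw_mem_of_not_pole (v : Place K F) {y : F} (hy : ¬ v.ord y < 0) :
    y ∈ v.toValuationSubring := by
  rcases eq_or_ne y 0 with rfl | h0
  · exact v.toValuationSubring.zero_mem
  · exact (hw_mem_iff_ord_nonneg v h0).mpr (not_lt.mp hy)

theorem hw_mem_of_ord_sub_pos (v : Place K F) {y : F} {c : K}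
    (h : 0 < v.ord (y - algebraMap K F c)) : y ∈ v.toValuationSubring := by
  have hne : y - algebraMap K F c ≠ 0 := by
    intro h0; rw [h0] at h; simp at h
  have h1 : y - algebraMap K F c ∈ v.toValuationSubring :=
    (hw_mem_iff_ord_nonneg v hne).mpr h.le
  have := v.toValuationSubring.add_mem _ _ h1 (v.algebraMap_mem' c)
  simpa using this

theorem hw_not_pole_of_ord_sub_pos (v : Place K F) {y : F} {c : K}
    (h : 0 < v.ord (y - algebraMap K F c)) : ¬ v.ord y < 0 := by
  have hm := hw_mem_of_ord_sub_pos v h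
  rcases eq_or_ne y 0 with rfl | h0
  · simp
  · have := (hw_mem_iff_ord_nonneg v h0).mp hm
    omega

/-- A place lies over at most one finite value of `y`. -/
theorem hw_fiber_disjoint (v : Place K F) {y : F} {c c' : K}
    (h : 0 < v.ord (y - algebraMap K F c)) (h' : 0 < v.ord (y - algebraMap K F c')) :
    c = c' := by
  by_contra hne
  have hne1 : y - algebraMap K F c ≠ 0 := by
    intro h0; rw [h0] at h; simp at h
  have hne2 : -(y - algebraMap K F c') ≠ 0 := by
    intro h0; rw [neg_eq_zero] at h0; rw [h0] at h'; simp at h'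
  have hsum : y - algebraMap K F c + -(y - algebraMap K F c') = algebraMap K F (c' - c) := by
    rw [map_sub]; ring
  have hcc : algebraMap K F (c' - c) ≠ 0 := by
    rw [Ne, map_eq_zero, sub_eq_zero]
    exact fun h => hne h.symm
  have := hw_ord_add_ge v hne1 hne2 (by rw [hsum]; exact hcc)
  rw [hsum, hw_ord_algebraMap, hw_ord_neg] at this
  rcases min_le_iff.mp this with h1 | h1 <;> omega

/-- **Riemann–Hurwitz count**: the degree of the divisor of a nonzero differential, in terms of
the number of places over the finitely many branch values and over infinity. -/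
theorem hw_degree_canonical_card {x : F} (hx : Transcendental K x) [FiniteDimensional K⟮x⟯ F]
    (E : Divisor K F) {ω : Ω[F⁄K]} (hω : ω ≠ 0) (hE : ∀ v, E v = v.ordDifferential ω)
    (C : Finset K)
    (hC : ∀ (c : K) (v : Place K F), 1 < v.ord (x - algebraMap K F c) → c ∈ C) :
    Divisor.degree E =
      ∑ c ∈ C, ((Module.finrank K⟮x⟯ F : ℤ) - ((hw_finite_fiber hx c).toFinset.card : ℤ))
        - (Module.finrank K⟮x⟯ F : ℤ) - ((hw_finite_poles hx).toFinset.card : ℤ) := by
  classical
  have hmemZ : ∀ c v, v ∈ (hw_finite_fiber hx c).toFinset ↔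
      0 < v.ord (x - algebraMap K F c) := by
    intro c v; simp
  have hmemP : ∀ v, v ∈ (hw_finite_poles hx).toFinset ↔ v.ord x < 0 := by
    intro v; simp
  set S : Finset (Place K F) :=
    (C.biUnion fun c => (hw_finite_fiber hx c).toFinset) ∪ (hw_finite_poles hx).toFinset with hSdef
  have hS : ∀ v, v ∉ S → v.ordDifferential (D K F x) = 0 := by
    intro v hv
    rw [hSdef, Finset.mem_union, not_or, Finset.mem_biUnion] at hv
    obtain ⟨hv1, hv2⟩ := hv
    rw [hmemP] at hv2
    have hxv := hw_mem_of_not_pole v hv2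
    obtain ⟨c, hc⟩ := hw_exists_const x v hxv
    rcases hc with hc | hc
    · exfalso
      apply hx
      rw [hc]
      exact isAlgebraic_algebraMap c
    · have hcC : c ∉ C := fun h => hv1 ⟨c, h, (hmemZ c v).mpr hc⟩
      have h1 : ¬ 1 < v.ord (x - algebraMap K F c) := fun h => hcC (hC c v h)
      rw [hw_ordDifferential_D_sub_const hx v c (ne_of_gt hc)]
      omega
  rw [hw_degree_eq_sum_ordDifferential hx E hω hE S hS]
  have hdisj : Disjoint (C.biUnion fun c => (hw_finite_fiber hx c).toFinset)
      (hw_finite_poles hx).toFinset := by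
    rw [Finset.disjoint_left]
    intro v h1 h2
    rw [Finset.mem_biUnion] at h1
    obtain ⟨c, _, hc⟩ := h1
    rw [hmemZ] at hc
    rw [hmemP] at h2
    exact hw_not_pole_of_ord_sub_pos v hc h2
  have hpd : (C : Set K).PairwiseDisjoint fun c => (hw_finite_fiber hx c).toFinset := by
    intro c _ c' _ hne
    rw [Function.onFun, Finset.disjoint_left]
    intro v h1 h2
    rw [hmemZ] at h1 h2
    exact hne (hw_fiber_disjoint v h1 h2)
  rw [hSdef, Finset.sum_union hdisj, Finset.sum_biUnion hpd]
  have h1 : ∀ c ∈ C, ∑ v ∈ (hw_finite_fiber hx c).toFinset, v.ordDifferential (D K F x) =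
      (Module.finrank K⟮x⟯ F : ℤ) - ((hw_finite_fiber hx c).toFinset.card : ℤ) := by
    intro c _
    rw [Finset.sum_congr rfl (fun v hv =>
      hw_ordDifferential_D_sub_const hx v c (ne_of_gt ((hmemZ c v).mp hv))),
      Finset.sum_sub_distrib, hw_sum_fiber_toFinset hx c]
    simp
  have h2 : ∑ v ∈ (hw_finite_poles hx).toFinset, v.ordDifferential (D K F x) =
      -(Module.finrank K⟮x⟯ F : ℤ) - ((hw_finite_poles hx).toFinset.card : ℤ) := by
    rw [Finset.sum_congr rfl (fun v hv =>
      hw_ordDifferential_D hx v (ne_of_lt ((hmemP v).mp hv))),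
      Finset.sum_sub_distrib, hw_sum_poles_toFinset hx]
    simp
  rw [Finset.sum_congr rfl h1, h2]
  ring

/-- The same count with `Set.ncard`. -/
theorem hw_degree_canonical_ncard {x : F} (hx : Transcendental K x) [FiniteDimensional K⟮x⟯ F]
    (E : Divisor K F) {ω : Ω[F⁄K]} (hω : ω ≠ 0) (hE : ∀ v, E v = v.ordDifferential ω)
    (C : Finset K)
    (hC : ∀ (c : K) (v : Place K F), 1 < v.ord (x - algebraMap K F c) → c ∈ C) :
    Divisor.degree E =
      ∑ c ∈ C, ((Module.finrank K⟮x⟯ F : ℤ) -
          (Set.ncard {v : Place K F | 0 < v.ord (x - algebraMap K F c)} : ℤ))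
        - (Module.finrank K⟮x⟯ F : ℤ) - (Set.ncard {v : Place K F | v.ord x < 0} : ℤ) := by
  rw [hw_degree_canonical_card hx E hω hE C hC, Set.ncard_eq_toFinset_card _ (hw_finite_poles hx)]
  congr 2
  refine Finset.sum_congr rfl fun c _ => ?_
  rw [Set.ncard_eq_toFinset_card _ (hw_finite_fiber hx c)]

/-- **Genus via Riemann–Hurwitz**: the prelude genus of a function field `F/K` in terms of the
number of places of `F` over the branch values of `x` and over infinity. -/
theorem hw_genus_eq {x : F} (hx : Transcendental K x) [FiniteDimensional K⟮x⟯ F]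
    [HasCanonicalDivisor (K := K) (F := F)] (C : Finset K)
    (hC : ∀ (c : K) (v : Place K F), 1 < v.ord (x - algebraMap K F c) → c ∈ C) :
    genus K F =
      ((∑ c ∈ C, ((Module.finrank K⟮x⟯ F : ℤ) -
          (Set.ncard {v : Place K F | 0 < v.ord (x - algebraMap K F c)} : ℤ))
        - (Module.finrank K⟮x⟯ F : ℤ) - (Set.ncard {v : Place K F | v.ord x < 0} : ℤ))
        + 2).toNat / 2 := by
  have hex : ∃ ω : Ω[F⁄K], ω ≠ 0 := ⟨D K F x, hw_D_ne_zero hx⟩
  rw [genus, dif_pos hex]
  rw [hw_degree_canonical_ncard hx (canonicalDivisorOf hex.choose_spec) hex.choose_spec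
    (fun v => canonicalDivisorOf_apply hex.choose_spec v) C hC]

end


end Fermat.Agent.S24
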