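import Mathlib
import Fermat.Agent.S24.Hurwitz.Degree

/-!
# S24 / Hurwitz count: Block H in the shapes frozen by the M3 architecture

The statements of `Places`–`Degree`, restated with the sets `hw_placesOver x c`,
`hw_placesAtInfty x`, finsums and `Set.ncard`, with `(x) (hx)` explicit.
-/

set_option autoImplicit false

namespace Fermat.Agent.S24

open AlgebraicCurve IntermediateField KaehlerDifferential

universe u v
variable {K : Type u} {F : Type v} [Field K] [Field F] [Algebra K F]

/-- The places of `F` over the finite value `x = c`. -/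
def hw_placesOver (x : F) (c : K) : Set (Place K F) := {v | 0 < v.ord (x - algebraMap K F c)}

/-- The places of `F` over `x = ∞`. -/
def hw_placesAtInfty (x : F) : Set (Place K F) := {v | v.ord x < 0}

variable [IsAlgClosed K] [CharZero K]

theorem hw_exists_differential_ne_zero (x : F) (hx : Transcendental K x)
    [FiniteDimensional K⟮x⟯ F] : ∃ ω : Ω[F⁄K], ω ≠ 0 :=
  ⟨D K F x, hw_D_ne_zero hx⟩

theorem hw_residue_surjective (x : F) (_hx : Transcendental K x) [FiniteDimensional K⟮x⟯ F]
    (v : Place K F) : Function.Surjective (algebraMap K v.ResidueField) :=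
  hw_algebraMap_residueField_surjective x v

theorem hw_finite_placesOver (x : F) (hx : Transcendental K x) [FiniteDimensional K⟮x⟯ F]
    (c : K) : (hw_placesOver x c).Finite :=
  hw_finite_fiber hx c

theorem hw_finite_placesAtInfty (x : F) (hx : Transcendental K x) [FiniteDimensional K⟮x⟯ F] :
    (hw_placesAtInfty (K := K) x).Finite :=
  hw_finite_poles hx

theorem hw_sum_ord_placesOver (x : F) (hx : Transcendental K x) [FiniteDimensional K⟮x⟯ F]
    (c : K) :
    ∑ᶠ v ∈ hw_placesOver x c, v.ord (x - algebraMap K F c) = (Module.finrank K⟮x⟯ F : ℤ) := by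
  rw [finsum_mem_eq_finite_toFinset_sum _ (hw_finite_placesOver x hx c)]
  exact hw_sum_fiber_toFinset hx c

theorem hw_sum_ord_placesAtInfty (x : F) (hx : Transcendental K x) [FiniteDimensional K⟮x⟯ F] :
    ∑ᶠ v ∈ hw_placesAtInfty (K := K) x, - v.ord x = (Module.finrank K⟮x⟯ F : ℤ) := by
  rw [finsum_mem_eq_finite_toFinset_sum _ (hw_finite_placesAtInfty x hx), Finset.sum_neg_distrib]
  have := hw_sum_poles_toFinset hx
  have h2 : (hw_finite_placesAtInfty x hx).toFinset = (hw_finite_poles hx).toFinset := rfl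
  rw [h2, this, neg_neg]

/-- If the fibre over `c` has `[F : K(x)]` places, it is unramified. -/
theorem hw_ord_eq_one_of_ncard (x : F) (hx : Transcendental K x) [FiniteDimensional K⟮x⟯ F]
    (c : K) (hc : (hw_placesOver x c).ncard = Module.finrank K⟮x⟯ F) (v : Place K F)
    (hv : 0 < v.ord (x - algebraMap K F c)) : v.ord (x - algebraMap K F c) = 1 := by
  classical
  have hsum := hw_sum_fiber_toFinset hx c
  have hcard : ((hw_finite_fiber hx c).toFinset.card : ℤ) = (Module.finrank K⟮x⟯ F : ℤ) := by
    rw [← hc, hw_placesOver, Set.ncard_eq_toFinset_card _ (hw_finite_fiber hx c)]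
  have h0 : ∑ w ∈ (hw_finite_fiber hx c).toFinset, (w.ord (x - algebraMap K F c) - 1) = 0 := by
    rw [Finset.sum_sub_distrib, hsum]
    simp [hcard]
  have hnn : ∀ w ∈ (hw_finite_fiber hx c).toFinset, 0 ≤ w.ord (x - algebraMap K F c) - 1 := by
    intro w hw
    have : 0 < w.ord (x - algebraMap K F c) := by simpa using hw
    omega
  have := (Finset.sum_eq_zero_iff_of_nonneg hnn).mp h0 v (by simpa using hv)
  omega

/-- **Riemann–Hurwitz count** in the architecture's shape. -/
theorem hw_degree_canonical (x : F) (hx : Transcendental K x) [FiniteDimensional K⟮x⟯ F]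
    (S : Finset K)
    (hS : ∀ c ∉ S, (hw_placesOver x c).ncard = Module.finrank K⟮x⟯ F)
    (ω : Ω[F⁄K]) (hω : ω ≠ 0) (D : Divisor K F) (hD : ∀ v, D v = v.ordDifferential ω) :
    Divisor.degree D = - 2 * (Module.finrank K⟮x⟯ F : ℤ)
      + ∑ c ∈ S, ((Module.finrank K⟮x⟯ F : ℤ) - (hw_placesOver x c).ncard)
      + ((Module.finrank K⟮x⟯ F : ℤ) - (hw_placesAtInfty (K := K) x).ncard) := by
  have hC : ∀ (c : K) (v : Place K F), 1 < v.ord (x - algebraMap K F c) → c ∈ S := by
    intro c v hv
    by_contra hc
    have := hw_ord_eq_one_of_ncard x hx c (hS c hc) v (by omega)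
    omega
  rw [hw_degree_canonical_ncard hx D hω hD S hC]
  simp only [hw_placesOver, hw_placesAtInfty]
  ring

/-- The prelude genus in the architecture's shape. -/
theorem hw_genus_eq_of_ncard (x : F) (hx : Transcendental K x) [FiniteDimensional K⟮x⟯ F]
    [HasCanonicalDivisor (K := K) (F := F)] (S : Finset K)
    (hS : ∀ c ∉ S, (hw_placesOver x c).ncard = Module.finrank K⟮x⟯ F) :
    genus K F = ((- 2 * (Module.finrank K⟮x⟯ F : ℤ)
      + ∑ c ∈ S, ((Module.finrank K⟮x⟯ F : ℤ) - (hw_placesOver x c).ncard)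
      + ((Module.finrank K⟮x⟯ F : ℤ) - (hw_placesAtInfty (K := K) x).ncard)) + 2).toNat / 2 := by
  have hex : ∃ ω : Ω[F⁄K], ω ≠ 0 := hw_exists_differential_ne_zero x hx
  rw [genus, dif_pos hex]
  rw [hw_degree_canonical x hx S hS _ hex.choose_spec (canonicalDivisorOf hex.choose_spec)
    (fun v => canonicalDivisorOf_apply hex.choose_spec v)]

end Fermat.Agent.S24
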